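import Fermat.Agent.S43.Tame.Gen
import Fermat.Agent.SS.GM2.Main
import Fermat.Agent.SS.Formal.Core34
import Fermat.Agent.ES.Glue.Iota
import Fermat.Agent.ES.B.ToD

/-!
# S43 / Tame / Kum : inertia at `q ∥ M q` acts on `Kum (M q) (p ^ k)` through ONE element

`exists_gen_kum` : there is `s ∈ I_A`, independent of `k`, such that for every `k` and every `a ∈ I_A` there is `n` with
`galKum a x - x = n • (galKum s x - x)` for ALL `x : Kum (M * q) (p ^ k)`.  Hence `ker (s - 1) = ` the `I_A`-invariants and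
`(s - 1) V = ` the span of all `(a - 1) V`.
-/

set_option autoImplicit false

namespace Fermat.Agent.S43.Tame

open Fermat.Agent.ES Fermat.Agent.SS Fermat.Agent.S55

/-- the Galois action on `Kum N m` has finite level. -/
theorem exists_open_kum (N m : ℕ) [NeZero N] (hm : 0 < m) :
    ∃ U : Subgroup GQ, Lall.IsOpen U ∧ ∀ a ∈ U, ∀ x : Kum N m, galKum N m a x = x := by
  have : Finite (Kum N m) := Glue.finite_Kum hm
  choose L hL hfix using galKum_smooth N m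
  refine ⟨(⨆ x, L x).fixingSubgroup, Lall_isOpen_iff.2 ⟨⨆ x, L x, inferInstance, le_rfl⟩,
    fun a ha x => hfix x a fun y hy => ?_⟩
  exact (IntermediateField.mem_fixingSubgroup_iff _ a).1 ha y (le_iSup L x hy)

variable {M q p : ℕ} [NeZero M] [NeZero q]

/-- the action form for one generator. -/
theorem IsGenOn.kum (hq : q.Prime) (hqM : ¬ q ∣ M) (hp : p.Prime) (hqp : q ≠ p)
    (A : ValuationSubring Qb) (hA : A.LiesOverPrime q) {s : GQ}
    (hs : IsGenOn p (A.inertiaSubgroupIn ℚ) s) (k : ℕ) :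
    ∀ a ∈ A.inertiaSubgroupIn ℚ, ∃ n : ℕ, ∀ x : Kum (M * q) (p ^ k),
      galKum (M * q) (p ^ k) a x - x = n • (galKum (M * q) (p ^ k) s x - x) := by
  have : NeZero (M * q) := ⟨Nat.mul_ne_zero (NeZero.ne M) (NeZero.ne q)⟩
  have hqm : ¬ q ∣ p ^ k := fun h =>
    hqp ((Nat.prime_dvd_prime_iff_eq hq hp).1 (hq.dvd_of_dvd_pow h))
  obtain ⟨U, hU, hUf⟩ := exists_open_kum (M * q) (p ^ k) (pow_pos hp.pos k)
  intro a ha
  obtain ⟨n, hn⟩ := hs.act (fun g => galKum (M * q) (p ^ k) g)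
    (fun a b x => by rw [galKum_mul]) k (fun x => Kum.nsmul_eq_zero x) Set.univ
    (fun a ha b hb x _ => core34 hq hqM hqm (GM2.crux2 M q (p ^ k) hq hqM hqm) A hA b a hb ha x)
    ⟨U, hU, fun a _ haU x _ => hUf a haU x⟩ a ha
  exact ⟨n, fun x => hn x trivial⟩

/-- **(GEN)**. -/
theorem exists_gen_kum (hq : q.Prime) (hqM : ¬ q ∣ M) (hp : p.Prime) (hp2 : p ≠ 2) (hqp : q ≠ p)
    (A : ValuationSubring Qb) (hA : A.LiesOverPrime q) :
    ∃ s ∈ A.inertiaSubgroupIn ℚ, IsGenOn p (A.inertiaSubgroupIn ℚ) s ∧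
      ∀ k : ℕ, ∀ a ∈ A.inertiaSubgroupIn ℚ, ∃ n : ℕ, ∀ x : Kum (M * q) (p ^ k),
        galKum (M * q) (p ^ k) a x - x = n • (galKum (M * q) (p ^ k) s x - x) := by
  have : Fact p.Prime := ⟨hp⟩
  have : Fact q.Prime := ⟨hq⟩
  obtain ⟨s, hs⟩ := exists_isGenOn (p := p) (q := q) hp2 hqp A hA
  exact ⟨s, hs.1, hs, fun k => hs.kum hq hqM hp hqp A hA k⟩

omit [NeZero M] [NeZero q] in
/-- invariants of `s` = invariants of `I_A`. -/
theorem fixed_of_fixed_gen {k : ℕ} {A : ValuationSubring Qb} {s : GQ}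
    (h : ∀ a ∈ A.inertiaSubgroupIn ℚ, ∃ n : ℕ, ∀ x : Kum (M * q) (p ^ k),
      galKum (M * q) (p ^ k) a x - x = n • (galKum (M * q) (p ^ k) s x - x))
    {x : Kum (M * q) (p ^ k)} (hx : galKum (M * q) (p ^ k) s x = x) :
    ∀ a ∈ A.inertiaSubgroupIn ℚ, galKum (M * q) (p ^ k) a x = x := by
  intro a ha
  obtain ⟨n, hn⟩ := h a ha
  have := hn x
  rw [hx, sub_self, smul_zero] at this
  exact sub_eq_zero.1 this

end Fermat.Agent.S43.Tame
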