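import Fermat.Agent.S43.Tame.Gen
import Fermat.Agent.S43.CH.Cyc
import Fermat.Agent.S15.D.Val
import Fermat.Agent.S33.Soft.KIner

/-!
# S43 / Tame / Cyc : the cyclotomic character mod `q` on the inertia group at `q`

* `cyc_surj_inertia` : `cyc q : I_A → (ZMod q)ˣ` is onto (`ℚ(ζ_q)` is totally ramified at `q`);
* `IsGenOn.cyc_pow_ne_one` : for a tame generator `s` (`Tame/Gen.lean`) and `p ∣ q - 1`: `(cyc q s) ^ ((q-1)/p) ≠ 1`;
* `IsGenOn.orderOf_cyc_pow` : if `q - 1 = p ^ a * m'`, `p ∤ m'`, then `(cyc q s) ^ m'` has order exactly `p ^ a`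
  (so the diamond operator attached to `s` generates the `p`-part `Δ` of `(ℤ/q)ˣ`).
-/

set_option autoImplicit false

namespace Fermat.Agent.S43.Tame

open Fermat.Agent.ES Fermat.Agent.S55 Fermat.Agent.S43.CH Fermat.Agent.S36.Base Fermat.Agent.S15.D

theorem val_pow_sub_one {q : ℕ} (hq : q.Prime) (A : ValuationSubring Qb) {ζ : Qb}
    (hζ : IsPrimitiveRoot ζ q) {c : ℕ} (hc : ¬ q ∣ c) :
    A.valuation (ζ ^ c - 1) = A.valuation (ζ - 1) := by
  have hv1 : A.valuation ζ = 1 := by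
    have h1 : A.valuation ζ ^ q = 1 := by
      rw [← map_pow, hζ.pow_eq_one, map_one]
    exact (pow_eq_one_iff_of_nonneg zero_le hq.ne_zero).1 h1
  have hmem : ζ ∈ A := (A.valuation_le_one_iff ζ).1 hv1.le
  let z : A := ⟨ζ, hmem⟩
  have hz : IsPrimitiveRoot z q :=
    IsPrimitiveRoot.of_map_of_injective (f := A.subtype) hζ Subtype.val_injective
  have hcop : c.Coprime q := ((Nat.Prime.coprime_iff_not_dvd hq).2 hc).symm
  obtain ⟨u, hu⟩ := hz.associated_sub_one_pow_sub_one_of_coprime hcop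
  have hu' : (ζ - 1) * ((u : A) : Qb) = ζ ^ c - 1 := by
    have := congrArg (A.subtype) hu
    simpa [z] using this
  rw [← hu', map_mul, A.valuation_unit u, mul_one]

theorem not_dvd_val_unit {q : ℕ} [NeZero q] (hq : q.Prime) (c : (ZMod q)ˣ) :
    ¬ q ∣ ((c : (ZMod q)ˣ) : ZMod q).val := by
  intro h
  have : Fact q.Prime := ⟨hq⟩
  have h1 : ((((c : (ZMod q)ˣ) : ZMod q).val : ℕ) : ZMod q) = 0 := (ZMod.natCast_eq_zero_iff _ _).2 h
  rw [ZMod.natCast_zmod_val] at h1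
  exact c.ne_zero h1

/-- **`ℚ(ζ_q)` is totally ramified at `q`.** -/
theorem cyc_surj_inertia {q : ℕ} [NeZero q] (hq : q.Prime) (A : ValuationSubring Qb)
    (hA : A.LiesOverPrime q) (u : (ZMod q)ˣ) : ∃ σ ∈ A.inertiaSubgroupIn ℚ, cyc q σ = u := by
  classical
  have : Fact q.Prime := ⟨hq⟩
  obtain ⟨ζ, hζ⟩ := HasEnoughRootsOfUnity.exists_primitiveRoot Qb q
  set C : Subgroup (ZMod q)ˣ := (A.inertiaSubgroupIn ℚ).map (cyc q) with hC
  set η : Qb := ∏ c : C, (ζ ^ (((c : (ZMod q)ˣ) : ZMod q)).val - 1) with hη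
  have hne : ∀ c : C, ζ ^ (((c : (ZMod q)ˣ) : ZMod q)).val - 1 ≠ 0 := by
    intro c h
    have h1 : ζ ^ (((c : (ZMod q)ˣ) : ZMod q)).val = 1 := sub_eq_zero.1 h
    exact not_dvd_val_unit hq _ ((hζ.pow_eq_one_iff_dvd _).1 h1)
  have hη0 : η ≠ 0 := Finset.prod_ne_zero_iff.2 fun c _ => hne c
  have hfix : η ∈ L0 A := by
    rw [mem_L0_iff]
    intro σ hσ
    have hmem : cyc q σ ∈ C := ⟨σ, hσ, rfl⟩
    rw [hη, map_prod]
    rw [← Equiv.prod_comp (Equiv.mulLeft (⟨cyc q σ, hmem⟩ : C))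
      (fun c : C => ζ ^ (((c : (ZMod q)ˣ) : ZMod q)).val - 1)]
    refine Finset.prod_congr rfl fun c _ => ?_
    rw [map_sub, map_one, map_pow, cyc_spec q σ ζ hζ.pow_eq_one, ← pow_mul]
    congr 1
    show _ = ζ ^ ((((cyc q σ * (c : (ZMod q)ˣ) : (ZMod q)ˣ)) : ZMod q)).val
    rw [Units.val_mul, ZMod.val_mul]
    exact pow_eq_pow_mod _ hζ.pow_eq_one
  obtain ⟨k, hk⟩ := val_L0 hq hA hfix hη0
  have hvη : A.valuation η = A.valuation (ζ - 1) ^ (Fintype.card C) := by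
    rw [hη, map_prod, Finset.prod_congr rfl (fun c _ => val_pow_sub_one hq A hζ (not_dvd_val_unit hq _)),
      Finset.prod_const, Finset.card_univ]
  obtain ⟨n, rfl⟩ : ∃ n, q = n + 1 := ⟨q - 1, by have := hq.pos; omega⟩
  have hvq := Fermat.Agent.S33.Soft.kIner_valuation_eq hq A hζ
  have h1 : A.valuation (((n + 1 : ℕ) : Qb)) ^ ((Fintype.card C : ℕ) : ℤ)
      = A.valuation (((n + 1 : ℕ) : Qb)) ^ (k * (n : ℤ)) := by
    rw [zpow_mul, ← hk, hvη, zpow_natCast, zpow_natCast, hvq, ← pow_mul, ← pow_mul, mul_comm]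
  have h2 : ((Fintype.card C : ℕ) : ℤ) = k * (n : ℤ) := val_zpow_inj hq hA h1
  have h3 : n ∣ Fintype.card C := by
    have : (n : ℤ) ∣ ((Fintype.card C : ℕ) : ℤ) := Dvd.intro_left k h2.symm
    exact_mod_cast this
  have h4 : n ≤ Fintype.card C := Nat.le_of_dvd Fintype.card_pos h3
  have h5 : Fintype.card (ZMod (n + 1))ˣ = n := by
    rw [ZMod.card_units_eq_totient, Nat.totient_prime hq, Nat.add_sub_cancel]
  have htop : C = ⊤ := by
    apply Subgroup.eq_top_of_le_card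
    rw [Nat.card_eq_fintype_card, Nat.card_eq_fintype_card, h5]
    exact h4
  have hu : u ∈ C := by rw [htop]; trivial
  obtain ⟨σ, hσ, rfl⟩ := hu
  exact ⟨σ, hσ, rfl⟩

/-- a tame generator has maximal `p`-part under the cyclotomic character mod `q`. -/
theorem IsGenOn.cyc_pow_ne_one {p q : ℕ} [NeZero q] (hp : p.Prime) (hq : q.Prime)
    (A : ValuationSubring Qb) (hA : A.LiesOverPrime q) (hpq : p ∣ q - 1) {s : GQ}
    (hs : IsGenOn p (A.inertiaSubgroupIn ℚ) s) : (cyc q s) ^ ((q - 1) / p) ≠ 1 := by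
  classical
  have : Fact q.Prime := ⟨hq⟩
  intro hcon
  let K : Subgroup (ZMod q)ˣ := (powMonoidHom p : (ZMod q)ˣ →* (ZMod q)ˣ).ker
  have hK : ∀ g : GQ, (cyc q g) ^ ((q - 1) / p) ∈ K := by
    intro g
    show ((cyc q g) ^ ((q - 1) / p)) ^ p = 1
    rw [← pow_mul, Nat.div_mul_cancel hpq]
    exact ZMod.units_pow_card_sub_one_eq_one q _
  let y : GQ → Additive K := fun g => Additive.ofMul ⟨(cyc q g) ^ ((q - 1) / p), hK g⟩
  have hy : IsLevOn (A.inertiaSubgroupIn ℚ) y := by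
    refine ⟨fun a _ b _ => ?_, ?_⟩
    · show Additive.ofMul _ = Additive.ofMul _ + Additive.ofMul _
      rw [← ofMul_mul]
      congr 1
      apply Subtype.ext
      show (cyc q (a * b)) ^ ((q - 1) / p) = (cyc q a) ^ ((q - 1) / p) * (cyc q b) ^ ((q - 1) / p)
      rw [map_mul, mul_pow]
    · obtain ⟨L, hL, hfix⟩ := cyc_finiteLevel q
      refine ⟨L.fixingSubgroup, Lall_isOpen_iff.2 ⟨L, hL, le_rfl⟩, fun a _ ha => ?_⟩
      have h1 : cyc q a = 1 := hfix a fun x hx => (IntermediateField.mem_fixingSubgroup_iff _ a).1 ha x hx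
      show Additive.ofMul _ = 0
      rw [← ofMul_one]
      congr 1
      apply Subtype.ext
      show (cyc q a) ^ ((q - 1) / p) = 1
      rw [h1, one_pow]
  have hkill : ∀ x : Additive K, p ^ 1 • x = 0 := by
    intro x
    rw [pow_one]
    have : (x.toMul) ^ p = 1 := Subtype.ext x.toMul.2
    exact congrArg Additive.ofMul this
  have hys : y s = 0 := by
    show Additive.ofMul _ = 0
    rw [← ofMul_one]
    congr 1
    exact Subtype.ext hcon
  have hall : ∀ u : (ZMod q)ˣ, u ^ ((q - 1) / p) = 1 := by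
    intro u
    obtain ⟨σ, hσ, rfl⟩ := cyc_surj_inertia hq A hA u
    obtain ⟨n, hn⟩ := hs.2 (Additive K) y 1 hkill hy σ hσ
    rw [hys, smul_zero] at hn
    have : (y σ).toMul = 1 := congrArg Additive.toMul hn
    exact congrArg Subtype.val this
  obtain ⟨g, hg⟩ := IsCyclic.exists_generator (α := (ZMod q)ˣ)
  have hord : orderOf g = q - 1 := by
    rw [orderOf_eq_card_of_forall_mem_zpowers hg, Nat.card_eq_fintype_card,
      ZMod.card_units_eq_totient, Nat.totient_prime hq]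
  have hdvd : q - 1 ∣ (q - 1) / p := by
    have := orderOf_dvd_of_pow_eq_one (hall g)
    rwa [hord] at this
  have hpos : 0 < q - 1 := by have := hq.two_le; omega
  have hlt : (q - 1) / p < q - 1 := Nat.div_lt_self hpos hp.one_lt
  have hpos' : 0 < (q - 1) / p := Nat.div_pos (Nat.le_of_dvd hpos hpq) hp.pos
  exact absurd (Nat.le_of_dvd hpos' hdvd) (by omega)

/-- the `p`-part of `cyc q s` has order exactly `p ^ a`. -/
theorem IsGenOn.orderOf_cyc_pow {p q a m' : ℕ} [NeZero q] (hp : p.Prime) (hq : q.Prime)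
    (A : ValuationSubring Qb) (hA : A.LiesOverPrime q) (hqa : q - 1 = p ^ a * m') {s : GQ}
    (hs : IsGenOn p (A.inertiaSubgroupIn ℚ) s) : orderOf ((cyc q s) ^ m') = p ^ a := by
  have : Fact q.Prime := ⟨hq⟩
  have : Fact p.Prime := ⟨hp⟩
  have h1 : ((cyc q s) ^ m') ^ (p ^ a) = 1 := by
    rw [← pow_mul, mul_comm, ← hqa]
    exact ZMod.units_pow_card_sub_one_eq_one q _
  rcases Nat.eq_zero_or_pos a with rfl | ha
  · rw [pow_zero, pow_one] at h1
    rw [h1, orderOf_one, pow_zero]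
  obtain ⟨b, rfl⟩ : ∃ b, a = b + 1 := ⟨a - 1, by omega⟩
  refine orderOf_eq_prime_pow ?_ h1
  intro hcon
  have hpq : p ∣ q - 1 := by
    rw [hqa, pow_succ]
    exact ⟨p ^ b * m', by ring⟩
  apply hs.cyc_pow_ne_one hp hq A hA hpq
  have e : (q - 1) / p = m' * p ^ b := by
    rw [hqa, pow_succ]
    rw [show p ^ b * p * m' = p * (m' * p ^ b) by ring, Nat.mul_div_cancel_left _ hp.pos]
  rw [e, pow_mul]
  exact hcon

end Fermat.Agent.S43.Tame
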