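import Fermat.Agent.S56.Loc.Arith2
import Fermat.Agent.S55.Places.Transitive

/-!
# S43 / Tame / Gen : a single generator of tame inertia on `p`-power modules (`q ≠ p`, `p` odd)

`A` a valuation ring of `ℚ̄` over `q`, `I_A` its inertia group.

* `IsLev A y`    : `y : GQ → Y` is additive on `I_A` and vanishes on `I_A ⊓ U` for some open `U`;
* `IsGen p A s`  : `s ∈ I_A` and for every additive group `Y` killed by a power of `p` and every `y` with `IsLev A y`,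
                   every `y a` (`a ∈ I_A`) is a multiple of `y s`;
* `exists_isGen` : such an `s` exists;
* `IsGen.of_ne`  : every `s' ∈ I_A` on which some `ZMod p`-valued `χ₀` with `IsLev A χ₀` does not vanish is again a generator.
-/

set_option autoImplicit false

noncomputable section

namespace Fermat.Agent.S43.Tame

open Fermat.Agent.S55 Fermat.Agent.S55.Places Fermat.Agent.S56.Loc

/-- `y` is additive on `I` and vanishes on `I ⊓ U` for an open subgroup `U`. -/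
def IsLevOn (I : Subgroup GQ) {Y : Type} [AddCommGroup Y] (y : GQ → Y) : Prop :=
  (∀ a ∈ I, ∀ b ∈ I, y (a * b) = y a + y b) ∧
    ∃ U : Subgroup GQ, Lall.IsOpen U ∧ ∀ a ∈ I, a ∈ U → y a = 0

/-- `s` generates the image of `I` in every `p`-power torsion group. -/
def IsGenOn (p : ℕ) (I : Subgroup GQ) (s : GQ) : Prop :=
  s ∈ I ∧ ∀ (Y : Type) [AddCommGroup Y] (y : GQ → Y) (k : ℕ), (∀ x : Y, p ^ k • x = 0) →
    IsLevOn I y → ∀ a ∈ I, ∃ n : ℕ, y a = n • y s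

theorem IsLevOn.map_one {I : Subgroup GQ} {Y : Type} [AddCommGroup Y] {y : GQ → Y}
    (h : IsLevOn I y) : y 1 = 0 := by
  have := h.1 1 I.one_mem 1 I.one_mem
  rw [mul_one] at this
  exact left_eq_add.mp this

theorem IsLevOn.map_inv {I : Subgroup GQ} {Y : Type} [AddCommGroup Y] {y : GQ → Y}
    (h : IsLevOn I y) {a : GQ} (ha : a ∈ I) : y a⁻¹ = - y a := by
  have := h.1 a ha a⁻¹ (I.inv_mem ha)
  rw [mul_inv_cancel, h.map_one] at this
  exact (neg_eq_of_add_eq_zero_right this.symm).symm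

/-- the image of `I`. -/
def imgOn (I : Subgroup GQ) {Y : Type} [AddCommGroup Y] (y : GQ → Y) (h : IsLevOn I y) :
    AddSubgroup Y where
  carrier := {x | ∃ a ∈ I, y a = x}
  zero_mem' := ⟨1, I.one_mem, h.map_one⟩
  add_mem' := by
    rintro _ _ ⟨a, ha, rfl⟩ ⟨b, hb, rfl⟩
    exact ⟨a * b, I.mul_mem ha hb, h.1 a ha b hb⟩
  neg_mem' := by
    rintro _ ⟨a, ha, rfl⟩
    exact ⟨a⁻¹, I.inv_mem ha, h.map_inv ha⟩

/-- one Nakayama step. -/
theorem step_of_modp {p : ℕ} [Fact p.Prime] {I : Subgroup GQ} {t : GQ} (ht : t ∈ I) {χ : GQ → ZMod p}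
    (hχ : ∀ (Y : Type) [AddCommGroup Y] [Module (ZMod p) Y] (y : GQ → Y),
      (∀ a ∈ I, ∀ b ∈ I, y (a * b) = y a + y b) →
      (∃ U : Subgroup GQ, Lall.IsOpen U ∧ ∀ a ∈ I, a ∈ U → y a = 0) →
      ∀ a ∈ I, y a = χ a • y t)
    {Y : Type} [AddCommGroup Y] {y : GQ → Y} (h : IsLevOn I y) :
    ∀ a ∈ I, ∃ (n : ℤ) (b : GQ), b ∈ I ∧ y a = n • y t + p • y b := by
  classical
  set S : AddSubgroup Y := imgOn I y h with hS
  have hmem : ∀ a ∈ I, y a ∈ S := fun a ha => ⟨a, ha, rfl⟩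
  -- the subgroup `B + p S` of `S`
  let T : AddSubgroup S :=
    AddSubgroup.zmultiples (⟨y t, hmem t ht⟩ : S) ⊔ (nsmulAddMonoidHom (α := S) p).range
  have hkill : ∀ x : S ⧸ T, p • x = 0 := by
    intro x
    obtain ⟨x, rfl⟩ := QuotientAddGroup.mk_surjective x
    rw [← QuotientAddGroup.mk_nsmul, QuotientAddGroup.eq_zero_iff]
    exact AddSubgroup.mem_sup_right ⟨x, rfl⟩
  let _ : Module (ZMod p) (S ⧸ T) := AddCommGroup.zmodModule hkill
  let y' : GQ → S ⧸ T := fun a => if ha : a ∈ I then QuotientAddGroup.mk ⟨y a, hmem a ha⟩ else 0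
  have hy' : ∀ a (ha : a ∈ I), y' a = QuotientAddGroup.mk ⟨y a, hmem a ha⟩ := fun a ha => dif_pos ha
  have hadd : ∀ a ∈ I, ∀ b ∈ I, y' (a * b) = y' a + y' b := by
    intro a ha b hb
    rw [hy' a ha, hy' b hb, hy' _ (I.mul_mem ha hb), ← QuotientAddGroup.mk_add]
    congr 1
    exact Subtype.ext (h.1 a ha b hb)
  have hlev : ∃ U : Subgroup GQ, Lall.IsOpen U ∧ ∀ a ∈ I, a ∈ U → y' a = 0 := by
    obtain ⟨U, hU, hv⟩ := h.2
    refine ⟨U, hU, fun a ha haU => ?_⟩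
    rw [hy' a ha, QuotientAddGroup.eq_zero_iff]
    have : (⟨y a, hmem a ha⟩ : S) = 0 := Subtype.ext (hv a ha haU)
    rw [this]
    exact T.zero_mem
  have ht0 : y' t = 0 := by
    rw [hy' t ht, QuotientAddGroup.eq_zero_iff]
    exact AddSubgroup.mem_sup_left (AddSubgroup.mem_zmultiples _)
  intro a ha
  have h0 : y' a = 0 := by rw [hχ (S ⧸ T) y' hadd hlev a ha, ht0, smul_zero]
  rw [hy' a ha, QuotientAddGroup.eq_zero_iff] at h0
  obtain ⟨u, hu, v, hv, huv⟩ := AddSubgroup.mem_sup.1 h0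
  obtain ⟨n, rfl⟩ := AddSubgroup.mem_zmultiples_iff.1 hu
  obtain ⟨⟨_, b, hb, rfl⟩, rfl⟩ := hv
  refine ⟨n, b, hb, ?_⟩
  have := congrArg (fun z : S => (z : Y)) huv
  simpa using this.symm

theorem isGenOn_of_modp {p : ℕ} [Fact p.Prime] {I : Subgroup GQ} {t : GQ} (ht : t ∈ I) {χ : GQ → ZMod p}
    (hχ : ∀ (Y : Type) [AddCommGroup Y] [Module (ZMod p) Y] (y : GQ → Y),
      (∀ a ∈ I, ∀ b ∈ I, y (a * b) = y a + y b) →
      (∃ U : Subgroup GQ, Lall.IsOpen U ∧ ∀ a ∈ I, a ∈ U → y a = 0) →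
      ∀ a ∈ I, y a = χ a • y t) : IsGenOn p I t := by
  refine ⟨ht, fun Y _ y k hk h a ha => ?_⟩
  have key : ∀ j : ℕ, ∀ a ∈ I, ∃ (n : ℤ) (b : GQ), b ∈ I ∧ y a = n • y t + p ^ j • y b := by
    intro j
    induction j with
    | zero => exact fun a ha => ⟨0, a, ha, by simp⟩
    | succ j ih =>
      intro a ha
      obtain ⟨n, b, hb, e⟩ := ih a ha
      obtain ⟨n', b', hb', e'⟩ := step_of_modp ht hχ h b hb
      refine ⟨n + p ^ j * n', b', hb', ?_⟩
      rw [e, e', smul_add, add_smul, add_assoc, pow_succ, mul_smul, mul_smul]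
      congr 2
      rw [← natCast_zsmul (n' • y t) (p ^ j)]
      push_cast
      rfl
  obtain ⟨n, b, -, e⟩ := key k a ha
  rw [hk, add_zero] at e
  have hp : (0 : ℤ) < (p : ℤ) ^ k := by
    have := (Fact.out : p.Prime).pos
    positivity
  refine ⟨(n % (p : ℤ) ^ k).toNat, ?_⟩
  rw [e, ← natCast_zsmul, Int.toNat_of_nonneg (Int.emod_nonneg _ hp.ne')]
  conv_lhs => rw [← Int.emod_add_mul_ediv n ((p : ℤ) ^ k)]
  rw [add_smul, mul_smul]
  have : ((p : ℤ) ^ k) • ((n / (p : ℤ) ^ k) • y t) = 0 := by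
    have := hk ((n / (p : ℤ) ^ k) • y t)
    rw [← natCast_zsmul] at this
    push_cast at this
    exact this
  rw [this, add_zero]

/-- conjugation. -/
theorem IsGenOn.conj {p : ℕ} {I I' : Subgroup GQ} {t : GQ} (h : IsGenOn p I t) (g : GQ)
    (hI : ∀ a : GQ, a ∈ I' ↔ g⁻¹ * a * g ∈ I) : IsGenOn p I' (g * t * g⁻¹) := by
  have hmem : ∀ a ∈ I, g * a * g⁻¹ ∈ I' := by
    intro a ha
    rw [hI]
    have : g⁻¹ * (g * a * g⁻¹) * g = a := by group
    rwa [this]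
  refine ⟨hmem t h.1, fun Y _ y k hk hy a ha => ?_⟩
  have hy' : IsLevOn I (fun b => y (g * b * g⁻¹)) := by
    refine ⟨fun b hb c hc => ?_, ?_⟩
    · have : g * (b * c) * g⁻¹ = (g * b * g⁻¹) * (g * c * g⁻¹) := by group
      show y (g * (b * c) * g⁻¹) = _
      rw [this]
      exact hy.1 _ (hmem b hb) _ (hmem c hc)
    · obtain ⟨U, hU, hv⟩ := hy.2
      obtain ⟨N, hN, hNU, hNn, -⟩ := Lall.exists_normal hU
      exact ⟨N, hN, fun b hb hbN => hv _ (hmem b hb) (hNU (hNn.conj_mem b hbN g))⟩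
  obtain ⟨n, hn⟩ := h.2 Y _ k hk hy' (g⁻¹ * a * g) ((hI a).1 ha)
  refine ⟨n, ?_⟩
  have e : g * (g⁻¹ * a * g) * g⁻¹ = a := by group
  simpa only [e] using hn

/-- **existence of a tame generator** for the inertia group of any `A` over `q ≠ p`, `p` odd. -/
theorem exists_isGenOn {p q : ℕ} [Fact p.Prime] [Fact q.Prime] (hp2 : p ≠ 2) (hqp : q ≠ p)
    (A : ValuationSubring Qbar) (hA : A.LiesOverPrime q) :
    ∃ s : GQ, IsGenOn p (A.inertiaSubgroupIn ℚ) s := by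
  obtain ⟨g, rfl⟩ := exists_smul_padicPlace_eq q A hA
  obtain ⟨t, ht, χ, hχ⟩ := exists_tame_generator_Iq (p := p) (q := q) hp2 hqp
  exact ⟨_, (isGenOn_of_modp ht hχ).conj g (fun a => mem_inertia_smul_iff _ g a)⟩

theorem nsmul_eq_of_mod {Y : Type} [AddCommGroup Y] {m : ℕ} {x : Y} (hx : m • x = 0) {a : ℕ}
    (ha : a % m = 1) : a • x = x := by
  conv_lhs => rw [← Nat.mod_add_div a m, ha]
  rw [add_smul, one_smul, mul_smul, smul_comm, hx, smul_zero, add_zero]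

/-- every element of `I` on which some `ZMod p`-valued level homomorphism does not vanish is a generator. -/
theorem IsGenOn.of_ne {p : ℕ} [Fact p.Prime] {I : Subgroup GQ} {s s' : GQ} (h : IsGenOn p I s)
    (hs' : s' ∈ I) (χ₀ : GQ → ZMod p) (hχ₀ : IsLevOn I χ₀) (hne : χ₀ s' ≠ 0) : IsGenOn p I s' := by
  have hp : p.Prime := Fact.out
  refine ⟨hs', fun Y _ y k hk hy a ha => ?_⟩
  rcases Nat.eq_zero_or_pos k with rfl | hkpos
  · refine ⟨0, ?_⟩
    have := hk (y a)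
    rw [pow_zero, one_smul] at this
    rw [this, zero_smul]
  have hz : IsLevOn I (fun b => ((y b, χ₀ b) : Y × ZMod p)) := by
    refine ⟨fun b hb c hc => ?_, ?_⟩
    · show (y (b * c), χ₀ (b * c)) = (y b, χ₀ b) + (y c, χ₀ c)
      rw [hy.1 b hb c hc, hχ₀.1 b hb c hc]
      rfl
    · obtain ⟨U, hU, hv⟩ := hy.2
      obtain ⟨U', hU', hv'⟩ := hχ₀.2
      refine ⟨U ⊓ U', Lall.isOpen_inf hU hU', fun b hb hbU => ?_⟩
      show (y b, χ₀ b) = 0
      rw [hv b hb hbU.1, hv' b hb hbU.2]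
      rfl
  have hkill : ∀ x : Y × ZMod p, p ^ k • x = 0 := by
    rintro ⟨x, c⟩
    refine Prod.ext (hk x) ?_
    show p ^ k • c = 0
    obtain ⟨j, rfl⟩ : ∃ j, k = j + 1 := ⟨k - 1, by omega⟩
    rw [pow_succ, mul_smul, nsmul_eq_mul (p : ℕ) c, ZMod.natCast_self, zero_mul, smul_zero]
  obtain ⟨n, hn⟩ := h.2 (Y × ZMod p) _ k hkill hz s' hs'
  have hn1 : y s' = n • y s := congrArg Prod.fst hn
  have hn2 : χ₀ s' = n • χ₀ s := congrArg Prod.snd hn
  have hpn : ¬ p ∣ n := by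
    intro hd
    apply hne
    rw [hn2, nsmul_eq_mul, (ZMod.natCast_eq_zero_iff n p).2 hd, zero_mul]
  have hcop : Nat.Coprime n (p ^ k) :=
    Nat.Coprime.pow_right k ((Nat.Prime.coprime_iff_not_dvd hp).2 hpn).symm
  obtain ⟨m, -, hm⟩ := Nat.exists_mul_mod_eq_one_of_coprime hcop (Nat.one_lt_pow hkpos.ne' hp.one_lt)
  have hs : y s = m • y s' := by
    rw [hn1, ← mul_smul, mul_comm, nsmul_eq_of_mod (hk (y s)) hm]
  obtain ⟨r, hr⟩ := h.2 Y y k hk hy a ha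
  exact ⟨r * m, by rw [hr, hs, mul_smul]⟩

/-- **action form**: if `I` acts on `X` (killed by `p ^ k`) with `(a - 1)(b - 1) = 0` on `V` and through a finite level,
then `a - 1 = n (s - 1)` on `V` with `n` independent of the vector. -/
theorem IsGenOn.act {p : ℕ} {I : Subgroup GQ} {s : GQ} (h : IsGenOn p I s)
    {X : Type} [AddCommGroup X] (ρ : GQ → X →+ X) (hmul : ∀ a b x, ρ (a * b) x = ρ a (ρ b x))
    (k : ℕ) (hk : ∀ x : X, p ^ k • x = 0) (V : Set X)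
    (hun : ∀ a ∈ I, ∀ b ∈ I, ∀ x ∈ V, ρ a (ρ b x - x) = ρ b x - x)
    (hlev : ∃ U : Subgroup GQ, Lall.IsOpen U ∧ ∀ a ∈ I, a ∈ U → ∀ x ∈ V, ρ a x = x) :
    ∀ a ∈ I, ∃ n : ℕ, ∀ x ∈ V, ρ a x - x = n • (ρ s x - x) := by
  intro a ha
  have hy : IsLevOn I (fun b => (fun x : V => ρ b (x : X) - (x : X) : V → X)) := by
    refine ⟨fun b hb c hc => ?_, ?_⟩
    · funext x
      show ρ (b * c) (x : X) - x = (ρ b x - x) + (ρ c x - x)
      have := hun b hb c hc x x.2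
      rw [map_sub] at this
      rw [hmul]
      have e : ρ b (ρ c (x : X)) = ρ c x - x + ρ b x := by rw [← this]; abel
      rw [e]
      abel
    · obtain ⟨U, hU, hv⟩ := hlev
      refine ⟨U, hU, fun b hb hbU => ?_⟩
      funext x
      show ρ b (x : X) - x = 0
      rw [hv b hb hbU x x.2, sub_self]
  obtain ⟨n, hn⟩ := h.2 (V → X) _ k (fun f => by funext x; exact hk (f x)) hy a ha
  exact ⟨n, fun x hx => congrFun hn ⟨x, hx⟩⟩

end Fermat.Agent.S43.Tame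

end
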