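import Fermat.Agent.S43.Tame.Kum
import Fermat.Agent.S15.D.Tame
import Fermat.Agent.S31.Cyclo

/-!
# S43 / Tame / Rel : the tame relation `Φ s Φ⁻¹ = s ^ q` on `p`-power modules

`A` over `q ≠ p`, `Φ` a Frobenius at `A`, `s` a tame generator (`IsGenOn p I_A s`).

* `conj_mem_inertia` : `g s g⁻¹ ∈ I_A` for `g ∈ D_A`;
* `rel_lev`          : `y (Φ s Φ⁻¹) = q • y s` for every level homomorphism `y` on `I_A` with values in a group killed by `p ^ k`;
* `rel_lev_all`      : the same for every `a ∈ I_A` instead of `s`;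
* `rel_kum`          : on `Kum (M * q) (p ^ k)` : `(Φ a Φ⁻¹ - 1) x = q • (a - 1) x`, and `frob_N` : `Φ N_a = q N_a' ...` in the form
                       `Φ ((a - 1) x) = q • (a - 1) (Φ x)`.
-/

set_option autoImplicit false

noncomputable section

namespace Fermat.Agent.S43.Tame

open Fermat.Agent.ES Fermat.Agent.SS

open scoped Pointwise

theorem conj_mem_inertia {A : ValuationSubring Qb} {g s : ES.GQ} (hg : g ∈ A.decompositionSubgroup ℚ)
    (hs : s ∈ A.inertiaSubgroupIn ℚ) : g * s * g⁻¹ ∈ A.inertiaSubgroupIn ℚ := by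
  have h1 : g • A = A := hg
  have h2 : g⁻¹ * (g * s * g⁻¹) * g = s := by group
  have h3 := (S55.Places.mem_inertia_smul_iff A g (g * s * g⁻¹)).2 (by rw [h2]; exact hs)
  rwa [h1] at h3

theorem nsmul_congr_mod {Y : Type*} [AddCommGroup Y] {m a b : ℕ} {x : Y} (hx : m • x = 0)
    (h : a ≡ b [MOD m]) : a • x = b • x := by
  have key : ∀ c : ℕ, c • x = (c % m) • x := by
    intro c
    conv_lhs => rw [← Nat.mod_add_div c m]
    rw [add_smul, mul_smul, smul_comm, hx, smul_zero, add_zero]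
  rw [key a, key b, h]

section kappa

variable {m : ℕ} {ν : Qb}

/-- `a ν / ν` as a unit. -/
def kq (ν : Qb) (hν0 : ν ≠ 0) (a : ES.GQ) : Qbˣ :=
  Units.mk0 (a ν / ν) (div_ne_zero (by rw [Ne, map_eq_zero]; exact hν0) hν0)

theorem kq_mem {q : ℕ} (hν0 : ν ≠ 0) (hν : ν ^ m = q) (a : ES.GQ) : kq ν hν0 a ∈ rootsOfUnity m Qb := by
  rw [mem_rootsOfUnity]
  apply Units.ext
  rw [Units.val_pow_eq_pow_val, kq, Units.val_mk0, div_pow, ← map_pow, hν, map_natCast, Units.val_one]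
  refine div_self ?_
  rw [← hν]
  exact pow_ne_zero _ hν0

/-- the Kummer cochain of `ν`, `ν ^ m = q`. -/
def kap {q : ℕ} (hν0 : ν ≠ 0) (hν : ν ^ m = q) (a : ES.GQ) : Additive (rootsOfUnity m Qb) :=
  Additive.ofMul ⟨kq ν hν0 a, kq_mem hν0 hν a⟩

theorem kap_val {q : ℕ} (hν0 : ν ≠ 0) (hν : ν ^ m = q) (a : ES.GQ) :
    ((((kap hν0 hν a).toMul : rootsOfUnity m Qb) : Qbˣ) : Qb) = a ν / ν := rfl

theorem kap_pow {q : ℕ} (hν0 : ν ≠ 0) (hν : ν ^ m = q) (a : ES.GQ) : (a ν / ν) ^ m = 1 := by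
  have := kq_mem hν0 hν a
  rw [mem_rootsOfUnity] at this
  have h2 := congrArg (fun u : Qbˣ => (u : Qb)) this
  simpa [kq] using h2

theorem kap_ext {x y : Additive (rootsOfUnity m Qb)}
    (h : (((x.toMul : rootsOfUnity m Qb) : Qbˣ) : Qb) = (((y.toMul : rootsOfUnity m Qb) : Qbˣ) : Qb)) :
    x = y :=
  Additive.toMul.injective (Subtype.ext (Units.ext h))

theorem kap_nsmul_val (x : Additive (rootsOfUnity m Qb)) (n : ℕ) :
    ((((n • x).toMul : rootsOfUnity m Qb) : Qbˣ) : Qb)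
      = (((x.toMul : rootsOfUnity m Qb) : Qbˣ) : Qb) ^ n := by
  rw [toMul_nsmul, Subgroup.coe_pow, Units.val_pow_eq_pow_val]

theorem kap_kill (x : Additive (rootsOfUnity m Qb)) : m • x = 0 := by
  apply kap_ext
  rw [kap_nsmul_val]
  have := (x.toMul : rootsOfUnity m Qb).2
  rw [mem_rootsOfUnity] at this
  have h2 := congrArg (fun u : Qbˣ => (u : Qb)) this
  simpa using h2

theorem isLevOn_kap {q : ℕ} (hq : q.Prime) (A : ValuationSubring Qb) (hA : A.LiesOverPrime q)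
    (hqm : ¬ q ∣ m) (hν0 : ν ≠ 0) (hν : ν ^ m = q) :
    IsLevOn (A.inertiaSubgroupIn ℚ) (kap hν0 hν) := by
  refine ⟨fun a ha b _ => ?_, ?_⟩
  · apply kap_ext
    rw [toMul_add, Subgroup.coe_mul, Units.val_mul, kap_val, kap_val, kap_val, AlgEquiv.mul_apply]
    have h1 : b ν = (b ν / ν) * ν := by field_simp
    have h2 : a (b ν / ν) = b ν / ν :=
      S31.inertia_apply_root A hq hA a ha hqm (kap_pow hν0 hν b)
    conv_lhs => rw [h1, map_mul, h2]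
    field_simp
  · have hm0 : 0 < m := Nat.pos_of_ne_zero (by rintro rfl; exact hqm (dvd_zero q))
    have hint : IsIntegral ℚ ν := IsIntegral.of_pow hm0 (by
      rw [hν, show (q : Qb) = algebraMap ℚ Qb (q : ℚ) from (map_natCast _ q).symm]
      exact isIntegral_algebraMap)
    have : FiniteDimensional ℚ (IntermediateField.adjoin ℚ {ν}) :=
      IntermediateField.adjoin.finiteDimensional hint
    refine ⟨(IntermediateField.adjoin ℚ {ν}).fixingSubgroup,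
      S55.Lall_isOpen_iff.2 ⟨_, this, le_rfl⟩, fun a _ haU => ?_⟩
    apply kap_ext
    rw [kap_val]
    have : a ν = ν := (IntermediateField.mem_fixingSubgroup_iff _ a).1 haU ν
      (IntermediateField.mem_adjoin_simple_self ℚ ν)
    rw [this, div_self hν0]
    rfl

end kappa

variable {p q : ℕ}

/-- a generator moves `q ^ (1 / p ^ k)` by a primitive root of unity. -/
theorem orderOf_gen (hp : p.Prime) (hq : q.Prime) (hqp : q ≠ p) (A : ValuationSubring Qb)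
    (hA : A.LiesOverPrime q) {s : ES.GQ} (hs : IsGenOn p (A.inertiaSubgroupIn ℚ) s) (k : ℕ) {ν : Qb}
    (hν0 : ν ≠ 0) (hν : ν ^ (p ^ k) = q) : orderOf (s ν / ν) = p ^ k := by
  have : Fact p.Prime := ⟨hp⟩
  have hqm : ¬ q ∣ p ^ k := fun h =>
    hqp ((Nat.prime_dvd_prime_iff_eq hq hp).1 (hq.dvd_of_dvd_pow h))
  have hd : orderOf (s ν / ν) ∣ p ^ k := orderOf_dvd_of_pow_eq_one (kap_pow hν0 hν s)
  obtain ⟨j, hj, hjo⟩ := (Nat.dvd_prime_pow hp).mp hd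
  rcases Nat.lt_or_ge j k with hlt | hge
  · exfalso
    obtain ⟨k', rfl⟩ : ∃ k', k = k' + 1 := ⟨k - 1, by omega⟩
    have h1 : (s ν / ν) ^ (p ^ k') = 1 := by
      rw [← orderOf_dvd_iff_pow_eq_one, hjo]
      exact pow_dvd_pow p (by omega)
    -- `ν' = ν ^ (p ^ k')`
    have hν'0 : ν ^ (p ^ k') ≠ 0 := pow_ne_zero _ hν0
    have hν' : ((Units.mk0 _ hν'0 : Qbˣ) : Qb) ^ p = q := by
      rw [Units.val_mk0, ← pow_mul, ← pow_succ, hν]
    obtain ⟨σ, hσ, hne⟩ := S15.D.exists_inertia_kum_nu_ne_zero (e := p) hq hA (Units.mk0 _ hν'0) hν'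
    apply hne
    rw [S55.B.kum_eq_zero_iff p (by rw [hν', map_natCast]), Units.val_mk0]
    obtain ⟨n, hn⟩ := hs.2 _ (kap hν0 hν) (k' + 1) kap_kill (isLevOn_kap hq A hA hqm hν0 hν) σ hσ
    have h2 : σ ν / ν = (s ν / ν) ^ n := by
      have := congrArg (fun x : Additive (rootsOfUnity (p ^ (k' + 1)) Qb) =>
        (((x.toMul : rootsOfUnity (p ^ (k' + 1)) Qb) : Qbˣ) : Qb)) hn
      simpa only [kap_nsmul_val, kap_val] using this
    have h3 : (σ ν / ν) ^ (p ^ k') = 1 := by rw [h2, ← pow_mul, mul_comm, pow_mul, h1, one_pow]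
    rw [div_pow, div_eq_one_iff_eq hν'0, ← map_pow] at h3
    exact h3
  · rw [hjo]
    congr 1
    omega

/-- **the tame relation** on level homomorphisms. -/
theorem rel_lev (hp : p.Prime) (hq : q.Prime) (hqp : q ≠ p) (A : ValuationSubring Qb)
    (hA : A.LiesOverPrime q) {Φ : ES.GQ} (hΦ : A.IsFrobeniusAt Φ q) {s : ES.GQ}
    (hs : IsGenOn p (A.inertiaSubgroupIn ℚ) s) {Y : Type} [AddCommGroup Y] (y : ES.GQ → Y) (k : ℕ)
    (hk : ∀ x : Y, p ^ k • x = 0) (hy : IsLevOn (A.inertiaSubgroupIn ℚ) y) :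
    y (Φ * s * Φ⁻¹) = q • y s := by
  have hqm : ¬ q ∣ p ^ k := fun h =>
    hqp ((Nat.prime_dvd_prime_iff_eq hq hp).1 (hq.dvd_of_dvd_pow h))
  obtain ⟨ν, hν⟩ := IsAlgClosed.exists_pow_nat_eq (q : Qb) (pow_pos hp.pos k)
  have hν0 : ν ≠ 0 := by
    rintro rfl
    rw [zero_pow (pow_pos hp.pos k).ne'] at hν
    exact hq.ne_zero (by exact_mod_cast hν.symm)
  have hκ := isLevOn_kap hq A hA hqm hν0 hν
  have hz : IsLevOn (A.inertiaSubgroupIn ℚ)
      (fun b => ((y b, kap hν0 hν b) : Y × Additive (rootsOfUnity (p ^ k) Qb))) := by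
    refine ⟨fun b hb c hc => ?_, ?_⟩
    · show (y (b * c), kap hν0 hν (b * c)) = (y b, kap hν0 hν b) + (y c, kap hν0 hν c)
      rw [hy.1 b hb c hc, hκ.1 b hb c hc]
      rfl
    · obtain ⟨U, hU, hv⟩ := hy.2
      obtain ⟨U', hU', hv'⟩ := hκ.2
      refine ⟨U ⊓ U', S55.Lall.isOpen_inf hU hU', fun b hb hbU => ?_⟩
      show (y b, kap hν0 hν b) = 0
      rw [hv b hb hbU.1, hv' b hb hbU.2]
      rfl
  have hmem := conj_mem_inertia hΦ.mem_decompositionSubgroup hs.1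
  obtain ⟨n, hn⟩ := hs.2 _ _ k (fun x => Prod.ext (hk x.1) (kap_kill x.2)) hz _ hmem
  have hn1 : y (Φ * s * Φ⁻¹) = n • y s := congrArg Prod.fst hn
  have hn2 : kap hν0 hν (Φ * s * Φ⁻¹) = n • kap hν0 hν s := congrArg Prod.snd hn
  have h2 : (Φ * s * Φ⁻¹) ν / ν = (s ν / ν) ^ n := by
    have := congrArg (fun x : Additive (rootsOfUnity (p ^ k) Qb) =>
      (((x.toMul : rootsOfUnity (p ^ k) Qb) : Qbˣ) : Qb)) hn2
    simpa only [kap_nsmul_val, kap_val] using this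
  -- direct computation
  have h3 : (Φ * s * Φ⁻¹) ν / ν = (s ν / ν) ^ q := by
    set μ : Qb := Φ⁻¹ ν with hμ
    have hμ0 : μ ≠ 0 := by rw [hμ, Ne, map_eq_zero]; exact hν0
    have hξ : (μ / ν) ^ (p ^ k) = 1 := kap_pow hν0 hν Φ⁻¹
    have hsξ : s (μ / ν) = μ / ν := S31.inertia_apply_root A hq hA s hs.1 hqm hξ
    have hsμ : s μ = (s ν / ν) * μ := by
      have e1 : μ = (μ / ν) * ν := by field_simp
      conv_lhs => rw [e1, map_mul, hsξ]
      field_simp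
    have hΦμ : Φ μ = ν := by
      rw [hμ, ← AlgEquiv.mul_apply, mul_inv_cancel, AlgEquiv.one_apply]
    rw [AlgEquiv.mul_apply, AlgEquiv.mul_apply, ← hμ, hsμ, map_mul, hΦμ,
      S31.frob_apply_root A hq hA Φ hΦ hqm (kap_pow hν0 hν s)]
    field_simp
  have h4 : n ≡ q [MOD p ^ k] := by
    have h5 : kq ν hν0 s ^ n = kq ν hν0 s ^ q := by
      apply Units.ext
      rw [Units.val_pow_eq_pow_val, Units.val_pow_eq_pow_val]
      show (s ν / ν) ^ n = (s ν / ν) ^ q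
      rw [← h2, h3]
    have h6 : orderOf (kq ν hν0 s) = p ^ k := by
      rw [← orderOf_units]
      exact orderOf_gen hp hq hqp A hA hs k hν0 hν
    rw [← h6]
    exact pow_eq_pow_iff_modEq.mp h5
  rw [hn1]
  exact nsmul_congr_mod (hk _) h4

/-- the tame relation for every element of inertia. -/
theorem rel_lev_all (hp : p.Prime) (hq : q.Prime) (hqp : q ≠ p) (A : ValuationSubring Qb)
    (hA : A.LiesOverPrime q) {Φ : ES.GQ} (hΦ : A.IsFrobeniusAt Φ q) {s : ES.GQ}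
    (hs : IsGenOn p (A.inertiaSubgroupIn ℚ) s) {Y : Type} [AddCommGroup Y] (y : ES.GQ → Y) (k : ℕ)
    (hk : ∀ x : Y, p ^ k • x = 0) (hy : IsLevOn (A.inertiaSubgroupIn ℚ) y) {a : ES.GQ}
    (ha : a ∈ A.inertiaSubgroupIn ℚ) : y (Φ * a * Φ⁻¹) = q • y a := by
  have hD := hΦ.mem_decompositionSubgroup
  -- `y' b = y (Φ b Φ⁻¹)` is again a level homomorphism
  have hy' : IsLevOn (A.inertiaSubgroupIn ℚ) (fun b => y (Φ * b * Φ⁻¹)) := by
    refine ⟨fun b hb c hc => ?_, ?_⟩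
    · have : Φ * (b * c) * Φ⁻¹ = (Φ * b * Φ⁻¹) * (Φ * c * Φ⁻¹) := by group
      show y (Φ * (b * c) * Φ⁻¹) = _
      rw [this]
      exact hy.1 _ (conj_mem_inertia hD hb) _ (conj_mem_inertia hD hc)
    · obtain ⟨U, hU, hv⟩ := hy.2
      obtain ⟨N, hN, hNU, hNn, -⟩ := S55.Lall.exists_normal hU
      exact ⟨N, hN, fun b hb hbN => hv _ (conj_mem_inertia hD hb) (hNU (hNn.conj_mem b hbN Φ))⟩
  have hz : IsLevOn (A.inertiaSubgroupIn ℚ) (fun b => ((y b, y (Φ * b * Φ⁻¹)) : Y × Y)) := by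
    refine ⟨fun b hb c hc => ?_, ?_⟩
    · exact Prod.ext (hy.1 b hb c hc) (hy'.1 b hb c hc)
    · obtain ⟨U, hU, hv⟩ := hy.2
      obtain ⟨U', hU', hv'⟩ := hy'.2
      refine ⟨U ⊓ U', S55.Lall.isOpen_inf hU hU', fun b hb hbU => ?_⟩
      exact Prod.ext (hv b hb hbU.1) (hv' b hb hbU.2)
  obtain ⟨n, hn⟩ := hs.2 _ _ k (fun x => Prod.ext (hk x.1) (hk x.2)) hz a ha
  have hn1 : y a = n • y s := congrArg Prod.fst hn
  have hn2 : y (Φ * a * Φ⁻¹) = n • y (Φ * s * Φ⁻¹) := congrArg Prod.snd hn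
  rw [hn2, hn1, rel_lev hp hq hqp A hA hΦ hs y k hk hy, smul_comm]

/-- the level homomorphism attached to a unipotent action (same computation as in `IsGenOn.act`). -/
theorem isLevOn_act {I : Subgroup ES.GQ} {X : Type} [AddCommGroup X] (ρ : ES.GQ → X →+ X)
    (hmul : ∀ a b x, ρ (a * b) x = ρ a (ρ b x)) (V : Set X)
    (hun : ∀ a ∈ I, ∀ b ∈ I, ∀ x ∈ V, ρ a (ρ b x - x) = ρ b x - x)
    (hlev : ∃ U : Subgroup ES.GQ, S55.Lall.IsOpen U ∧ ∀ a ∈ I, a ∈ U → ∀ x ∈ V, ρ a x = x) :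
    IsLevOn I (fun b => (fun x : V => ρ b (x : X) - (x : X) : V → X)) := by
  refine ⟨fun b hb c hc => ?_, ?_⟩
  · funext x
    show ρ (b * c) (x : X) - x = (ρ b x - x) + (ρ c x - x)
    have := hun b hb c hc x x.2
    rw [map_sub] at this
    rw [hmul]
    have e : ρ b (ρ c (x : X)) = ρ c x - x + ρ b x := by rw [← this]; abel
    rw [e]
    abel
  · obtain ⟨U, hU, hv⟩ := hlev
    refine ⟨U, hU, fun b hb hbU => ?_⟩
    funext x
    show ρ b (x : X) - x = 0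
    rw [hv b hb hbU x x.2, sub_self]

/-- **the tame relation, action form**: `Φ a Φ⁻¹ - 1 = q (a - 1)` on `V`. -/
theorem rel_act (hp : p.Prime) (hq : q.Prime) (hqp : q ≠ p) (A : ValuationSubring Qb)
    (hA : A.LiesOverPrime q) {Φ : ES.GQ} (hΦ : A.IsFrobeniusAt Φ q) {s : ES.GQ}
    (hs : IsGenOn p (A.inertiaSubgroupIn ℚ) s)
    {X : Type} [AddCommGroup X] (ρ : ES.GQ → X →+ X) (hmul : ∀ a b x, ρ (a * b) x = ρ a (ρ b x))
    (k : ℕ) (hk : ∀ x : X, p ^ k • x = 0) (V : Set X)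
    (hun : ∀ a ∈ A.inertiaSubgroupIn ℚ, ∀ b ∈ A.inertiaSubgroupIn ℚ, ∀ x ∈ V,
      ρ a (ρ b x - x) = ρ b x - x)
    (hlev : ∃ U : Subgroup ES.GQ, S55.Lall.IsOpen U ∧ ∀ a ∈ A.inertiaSubgroupIn ℚ, a ∈ U →
      ∀ x ∈ V, ρ a x = x) {a : ES.GQ} (ha : a ∈ A.inertiaSubgroupIn ℚ) :
    ∀ x ∈ V, ρ (Φ * a * Φ⁻¹) x - x = q • (ρ a x - x) := by
  intro x hx
  have h := rel_lev_all hp hq hqp A hA hΦ hs _ k (fun f => by funext x; exact hk (f x))
    (isLevOn_act ρ hmul V hun hlev) ha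
  exact congrFun h ⟨x, hx⟩

variable {M : ℕ} [NeZero M] [NeZero q]

/-- **the tame relation on `Kum (M q) (p ^ k)`**. -/
theorem rel_kum (hq : q.Prime) (hqM : ¬ q ∣ M) (hp : p.Prime) (hqp : q ≠ p)
    (A : ValuationSubring Qb) (hA : A.LiesOverPrime q) {Φ : ES.GQ} (hΦ : A.IsFrobeniusAt Φ q)
    {s : ES.GQ} (hs : IsGenOn p (A.inertiaSubgroupIn ℚ) s) (k : ℕ) {a : ES.GQ}
    (ha : a ∈ A.inertiaSubgroupIn ℚ) (x : Kum (M * q) (p ^ k)) :
    galKum (M * q) (p ^ k) (Φ * a * Φ⁻¹) x - x = q • (galKum (M * q) (p ^ k) a x - x) := by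
  have : NeZero (M * q) := ⟨Nat.mul_ne_zero (NeZero.ne M) (NeZero.ne q)⟩
  have hqm : ¬ q ∣ p ^ k := fun h =>
    hqp ((Nat.prime_dvd_prime_iff_eq hq hp).1 (hq.dvd_of_dvd_pow h))
  obtain ⟨U, hU, hUf⟩ := exists_open_kum (M * q) (p ^ k) (pow_pos hp.pos k)
  exact rel_act hp hq hqp A hA hΦ hs (fun g => galKum (M * q) (p ^ k) g)
    (fun a b x => by rw [galKum_mul]) k (fun x => Kum.nsmul_eq_zero x) Set.univ
    (fun a ha b hb x _ => core34 hq hqM hqm (GM2.crux2 M q (p ^ k) hq hqM hqm) A hA b a hb ha x)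
    ⟨U, hU, fun a _ haU x _ => hUf a haU x⟩ ha x trivial

/-- `Φ N_a = q N_a Φ` on `Kum (M q) (p ^ k)`. -/
theorem frob_N (hq : q.Prime) (hqM : ¬ q ∣ M) (hp : p.Prime) (hqp : q ≠ p)
    (A : ValuationSubring Qb) (hA : A.LiesOverPrime q) {Φ : ES.GQ} (hΦ : A.IsFrobeniusAt Φ q)
    {s : ES.GQ} (hs : IsGenOn p (A.inertiaSubgroupIn ℚ) s) (k : ℕ) {a : ES.GQ}
    (ha : a ∈ A.inertiaSubgroupIn ℚ) (x : Kum (M * q) (p ^ k)) :
    galKum (M * q) (p ^ k) Φ (galKum (M * q) (p ^ k) a x - x)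
      = q • (galKum (M * q) (p ^ k) a (galKum (M * q) (p ^ k) Φ x) - galKum (M * q) (p ^ k) Φ x) := by
  rw [← rel_kum hq hqM hp hqp A hA hΦ hs k ha, ← galKum_mul, map_sub, ← galKum_mul]
  congr 2
  group

end Fermat.Agent.S43.Tame

end
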