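import Fermat.Agent.S43.Tame.Kummer

/-!
# S43 / Tame / Abs : the inertia group acts through its tame character on a "unipotent" module with a pairing

`X` an abelian group with an action `ρ` of `G_ℚ` of finite level, `e : X × X → μ_m` additive in the first variable and
non degenerate on the left, `(s - 1)(t - 1) = 0` for `s t ∈ I_A` (`A ∣ q`, `q ∤ m`).

* `fix_of_fix`  : `s ∈ I_A`, `s r = r` for one `r` with `r ^ m = q`  ⟹  `s` acts trivially on `X`;
* `exists_pow`  : (`m = p ^ k`) `S ∈ I_A` moving a `p`-th root of `q`: every `s ∈ I_A` acts as a power of `S`;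
* `conj_frob`   : `φ S φ⁻¹` acts as `S ^ q` if `φ` normalises `I_A` and `φ ζ = ζ ^ q` on `μ_m`.
-/

set_option autoImplicit false

namespace Fermat.Agent.S43.Tame

open Fermat.Agent.S55 Fermat.Agent.S55.Places Fermat.Agent.S36.Base

noncomputable section

variable {q : ℕ} {A : ValuationSubring Qbar}

/-- the hypotheses on `(X, ρ, e)`. -/
structure IsTameMod (A : ValuationSubring Qbar) (m : ℕ) {X : Type*} [AddCommGroup X]
    (ρ : GQ → X →+ X) (e : X → X → Qbar) : Prop where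
  mul : ∀ s t x, ρ (s * t) x = ρ s (ρ t x)
  uni : ∀ s ∈ A.inertiaSubgroupIn ℚ, ∀ t ∈ A.inertiaSubgroupIn ℚ, ∀ x,
    ρ s (ρ t x - x) = ρ t x - x
  lev : ∀ x, ∃ E : NF, FiniteDimensional ℚ E ∧ ∀ s : GQ, (∀ y ∈ E, s y = y) → ρ s x = x
  add : ∀ a a' b, e (a + a') b = e a b * e a' b
  pow : ∀ a b, e a b ^ m = 1
  nd : ∀ a, (∀ b, e a b = 1) → a = 0

variable {m : ℕ} {X : Type*} [AddCommGroup X] {ρ : GQ → X →+ X} {e : X → X → Qbar}

theorem IsTameMod.fix_of_fix (h : IsTameMod A m ρ e) (hq : q.Prime) (hA : A.LiesOverPrime q)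
    (hm : ¬ q ∣ m) {r : Qbar} (hr : r ^ m = q) {s : GQ} (hs : s ∈ A.inertiaSubgroupIn ℚ)
    (hsr : s r = r) (x : X) : ρ s x = x := by
  have hm0 : m ≠ 0 := fun h0 => hm (h0 ▸ dvd_zero q)
  have hq0 : (q : Qbar) ≠ 0 := by exact_mod_cast hq.ne_zero
  have hr0 : r ≠ 0 := by
    intro h0
    rw [h0, zero_pow hm0] at hr
    exact hq0 hr.symm
  have he0 : ∀ b, e 0 b = 1 := by
    intro b
    have h1 := h.add 0 0 b
    rw [add_zero] at h1
    have h2 : e 0 b ≠ 0 := by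
      intro h0
      have := h.pow 0 b
      rw [h0, zero_pow hm0] at this
      exact zero_ne_one this
    exact (mul_eq_left₀ h2).1 h1.symm
  rw [← sub_eq_zero]
  refine h.nd _ fun z => ?_
  obtain ⟨E, hE, hEx⟩ := h.lev x
  obtain ⟨j, hj⟩ := kummer_inertia hq hA hm (fun t => e (ρ t x - x) z)
    (fun s hs t ht => by
      have h1 : ρ (s * t) x - x = (ρ s x - x) + (ρ t x - x) := by
        have h2 := h.uni s hs t ht x
        rw [map_sub] at h2
        rw [h.mul]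
        have h3 : ρ s (ρ t x) = ρ t x - x + ρ s x := by rw [← h2]; abel
        rw [h3]
        abel
      show e (ρ (s * t) x - x) z = _
      rw [h1, h.add])
    (fun s _ => h.pow _ _)
    ⟨E, hE, fun s _ hsE => by
      show e (ρ s x - x) z = 1
      rw [hEx s hsE, sub_self, he0]⟩
  have := hj s hs r hr
  rw [hsr, div_self hr0, one_zpow] at this
  exact this

variable {p : ℕ}

theorem IsTameMod.exists_pow {k : ℕ} (h : IsTameMod A (p ^ k) ρ e) (hq : q.Prime)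
    (hA : A.LiesOverPrime q) (hp : p.Prime) (hpq : p ≠ q) {v : Qbar} (hv : v ^ p = q) {S : GQ}
    (hS : S ∈ A.inertiaSubgroupIn ℚ) (hSv : S v ≠ v) {s : GQ} (hs : s ∈ A.inertiaSubgroupIn ℚ) :
    ∃ n : ℕ, ∀ x, ρ s x = ρ (S ^ n) x := by
  have hqm : ¬ q ∣ p ^ k := fun h =>
    hpq ((Nat.prime_dvd_prime_iff_eq hq hp).1 (hq.dvd_of_dvd_pow h)).symm
  obtain ⟨r, hr⟩ := IsAlgClosed.exists_pow_nat_eq (q : Qbar) (pow_pos hp.pos k)
  obtain ⟨n, hn⟩ := exists_pow_fix hq hA hp hpq hv hS hSv k hr hs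
  refine ⟨n, fun x => ?_⟩
  have h1 := h.fix_of_fix hq hA hqm hr (mul_mem (inv_mem (pow_mem hS n)) hs) hn x
  have h2 : s = S ^ n * ((S ^ n)⁻¹ * s) := by group
  conv_lhs => rw [h2]
  rw [h.mul, h1]

/-- fixed by `S` implies fixed by the whole inertia group. -/
theorem IsTameMod.fix_of_gen {k : ℕ} (h : IsTameMod A (p ^ k) ρ e) (hq : q.Prime)
    (hA : A.LiesOverPrime q) (hp : p.Prime) (hpq : p ≠ q) {v : Qbar} (hv : v ^ p = q) {S : GQ}
    (hS : S ∈ A.inertiaSubgroupIn ℚ) (hSv : S v ≠ v) {x : X} (hx : ρ S x = x) {s : GQ}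
    (hs : s ∈ A.inertiaSubgroupIn ℚ) : ρ s x = x := by
  obtain ⟨n, hn⟩ := h.exists_pow hq hA hp hpq hv hS hSv hs
  rw [hn]
  have h1 : ρ 1 x = x := by
    have h2 := h.fix_of_fix hq hA
      (fun h => hpq ((Nat.prime_dvd_prime_iff_eq hq hp).1 (hq.dvd_of_dvd_pow h)).symm)
      (IsAlgClosed.exists_pow_nat_eq (q : Qbar) (pow_pos hp.pos k)).choose_spec
      (one_mem _) (AlgEquiv.one_apply _) x
    exact h2
  clear hn
  induction n with
  | zero => rw [pow_zero, h1]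
  | succ n ih => rw [pow_succ, h.mul, hx, ih]

/-- `φ S φ⁻¹ = S ^ q` on `X`. -/
theorem IsTameMod.conj_frob (h : IsTameMod A m ρ e) (hq : q.Prime) (hA : A.LiesOverPrime q)
    (hm : ¬ q ∣ m) {S φ : GQ} (hS : S ∈ A.inertiaSubgroupIn ℚ)
    (hφS : φ * S * φ⁻¹ ∈ A.inertiaSubgroupIn ℚ)
    (hφ : ∀ ζ : Qbar, ζ ^ m = 1 → φ ζ = ζ ^ q) (x : X) :
    ρ (φ * S * φ⁻¹) x = ρ (S ^ q) x := by
  have hm0 : m ≠ 0 := fun h0 => hm (h0 ▸ dvd_zero q)
  have hq0 : (q : Qbar) ≠ 0 := by exact_mod_cast hq.ne_zero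
  obtain ⟨r, hr⟩ := IsAlgClosed.exists_pow_nat_eq (q : Qbar) (Nat.pos_of_ne_zero hm0)
  have hr0 : r ≠ 0 := by
    intro h0
    rw [h0, zero_pow hm0] at hr
    exact hq0 hr.symm
  -- `r' = φ⁻¹ r` is another root
  set r' : Qbar := φ⁻¹ r with hr'
  have hr'm : r' ^ m = q := by rw [hr', ← map_pow, hr, map_natCast]
  have hr'0 : r' ≠ 0 := by
    intro h0
    rw [h0, zero_pow hm0] at hr'm
    exact hq0 hr'm.symm
  have hφr' : φ r' = r := by
    rw [hr', ← AlgEquiv.mul_apply, mul_inv_cancel, AlgEquiv.one_apply]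
  have hz : (S r / r) ^ m = 1 := by rw [div_pow, ← map_pow, hr, map_natCast, div_self hq0]
  -- `S r' / r' = S r / r`
  have hξ : (r' / r) ^ m = 1 := by rw [div_pow, hr'm, hr, div_self hq0]
  have hSξ := Fermat.Agent.S31.inertia_apply_root A hq hA S hS hm hξ
  have hSr' : S r' = (S r / r) * r' := by
    rw [map_div₀] at hSξ
    have hSr0 : S r ≠ 0 := by
      rw [Ne, map_eq_zero]
      exact hr0
    have := (div_eq_div_iff hSr0 hr0).1 hSξ
    field_simp
    linear_combination this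
  have h1 : (φ * S * φ⁻¹) r = (S ^ q) r := by
    rw [AlgEquiv.mul_apply, AlgEquiv.mul_apply, ← hr', hSr', map_mul, hφr', hφ _ hz,
      pow_apply_tame hq hA hm hS hr0 hz q]
  have h2 : ((S ^ q)⁻¹ * (φ * S * φ⁻¹)) r = r := by
    rw [AlgEquiv.mul_apply, h1, ← AlgEquiv.mul_apply, inv_mul_cancel, AlgEquiv.one_apply]
  have h3 := h.fix_of_fix hq hA hm hr (mul_mem (inv_mem (pow_mem hS q)) hφS) h2 x
  have h4 : φ * S * φ⁻¹ = S ^ q * ((S ^ q)⁻¹ * (φ * S * φ⁻¹)) := by group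
  conv_lhs => rw [h4]
  rw [h.mul, h3]

end

end Fermat.Agent.S43.Tame
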