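import Fermat.Agent.S55.Arith.H90
import Fermat.Agent.S36.Base.Tame
import Fermat.Agent.S37.Formal
import Fermat.Agent.SS.Formal.Core34
import Fermat.Agent.SS.GM2.Main
import Fermat.Agent.ES.Glue.Iota
import Fermat.Agent.ES.B.ToD
import Mathlib.GroupTheory.FiniteAbelian.Duality
import Mathlib.RingTheory.RootsOfUnity.AlgebraicallyClosed

/-!
# S43 / Tame / Conj : the tame relation `Φ N Φ⁻¹ = q N` on `Kum (M q) m`

`A` a valuation ring of `ℚ̄` over `q`, `I = I_A` the inertia group, `q ∤ m`.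

* `exists_kummer_elt` : a finite level character `χ : I → μ_m` is `s ↦ s b / b` with `b ^ m = q ^ k`
  (Hilbert 90 over `L0 = ℚ̄^I` + `L0ˣ = q^ℤ × (units)`, units are `m`-th powers);
* `chi_conj`      : `χ (φ s φ⁻¹) = χ s ^ q` for a Frobenius element `φ` at `A`;
* `galKum_conj`   : `(φ s φ⁻¹ - 1) x = q (s - 1) x` on `Kum (M q) m`;
* `frob_mul_N`    : `φ ((s - 1) x) = q (s - 1) (φ x)`.
-/

set_option autoImplicit false

open AlgebraicCurve ModularCurve

namespace Fermat.Agent.S43.Tame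

open Fermat.Agent.ES

noncomputable section

variable {q : ℕ} {A : ValuationSubring Qb}

/-- **Kummer theory for the inertia group.** -/
theorem exists_kummer_elt (hq : q.Prime) (hA : A.LiesOverPrime q) {m : ℕ} (hm : ¬ q ∣ m)
    (χ : GQ → Qbˣ)
    (hmul : ∀ a ∈ A.inertiaSubgroupIn ℚ, ∀ b ∈ A.inertiaSubgroupIn ℚ, χ (a * b) = χ a * χ b)
    (hpow : ∀ a ∈ A.inertiaSubgroupIn ℚ, χ a ^ m = 1)
    (hlev : ∃ E : IntermediateField ℚ Qb, FiniteDimensional ℚ E ∧
      ∀ a ∈ A.inertiaSubgroupIn ℚ, (∀ x ∈ E, a x = x) → χ a = 1) :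
    ∃ (b : Qb) (k : ℤ), b ≠ 0 ∧ b ^ m = (q : Qb) ^ k ∧
      ∀ a ∈ A.inertiaSubgroupIn ℚ, a b = (χ a : Qb) * b := by
  classical
  obtain ⟨E, hE, hEχ⟩ := hlev
  set V : Subgroup GQ := A.inertiaSubgroupIn ℚ with hV
  let c : V → Additive Qbˣ := fun g => Additive.ofMul (χ (g : GQ))
  have hfix : ∀ g h : V, (g : GQ) ((χ (h : GQ) : Qbˣ) : Qb) = ((χ (h : GQ) : Qbˣ) : Qb) := by
    intro g h
    refine S31.inertia_apply_root A hq hA _ g.2 hm ?_
    have := hpow _ h.2
    rw [← Units.val_pow_eq_pow_val, this, Units.val_one]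
  have hc : c ∈ S55.Z1 (S55.Lall.sub V) (S55.rsub S55.Gm V) := by
    rw [S55.mem_Z1]
    refine ⟨fun g h => ?_, ?_⟩
    · have h1 : S55.rsub S55.Gm V g (c h) = c h := by
        apply Additive.toMul.injective
        apply Units.ext
        exact hfix g h
      rw [h1]
      show Additive.ofMul (χ ((g : GQ) * (h : GQ))) = _
      rw [hmul _ g.2 _ h.2, mul_comm]
      rfl
    · refine ⟨E.fixingSubgroup.comap V.subtype,
        ⟨E.fixingSubgroup, S55.Lall_isOpen_iff.2 ⟨E, hE, le_rfl⟩, le_rfl⟩, fun g s hs => ?_⟩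
      show Additive.ofMul (χ ((g : GQ) * (s : GQ))) = Additive.ofMul (χ (g : GQ))
      rw [hmul _ g.2 _ s.2, hEχ _ s.2 (fun x hx =>
        (IntermediateField.mem_fixingSubgroup_iff E _).1 hs x hx), mul_one]
  obtain ⟨β, hβ⟩ := S55.h90_Gm V hc
  set b0 : Qb := ((β.toMul : Qbˣ) : Qb) with hb0
  have hb00 : b0 ≠ 0 := Units.ne_zero _
  have hact : ∀ a ∈ V, a b0 = (χ a : Qb) * b0 := by
    intro a ha
    have h1 := congrFun hβ ⟨a, ha⟩
    rw [S55.d0_apply] at h1
    have h2 : S55.rsub S55.Gm V ⟨a, ha⟩ β = c ⟨a, ha⟩ + β := by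
      rw [← h1]; abel
    have h3 := congrArg (fun z : Additive Qbˣ => ((z.toMul : Qbˣ) : Qb)) h2
    exact h3
  have hmem : b0 ^ m ∈ S36.Base.L0 A := by
    rw [S36.Base.mem_L0_iff]
    intro σ hσ
    rw [map_pow, hact σ hσ, mul_pow, ← Units.val_pow_eq_pow_val, hpow σ hσ, Units.val_one, one_mul]
  obtain ⟨k, e, he1, he2, hek⟩ := S36.Base.exists_zpow_mul_pow hq hA hm
    (⟨b0 ^ m, hmem⟩ : S36.Base.L0 A) (fun h => pow_ne_zero m hb00 (congrArg Subtype.val h))
  have hek' : b0 ^ m = (q : Qb) ^ k * (e : Qb) ^ m := by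
    have h1 := congrArg (algebraMap (S36.Base.L0 A) Qb) hek
    rw [map_mul, map_pow, map_zpow₀, map_natCast] at h1
    exact h1
  have he0 : (e : Qb) ≠ 0 := by
    intro h0
    have hm0 : m ≠ 0 := fun h0 => hm (h0 ▸ dvd_zero q)
    rw [h0, zero_pow hm0, mul_zero] at hek'
    exact pow_ne_zero m hb00 hek'
  refine ⟨b0 / (e : Qb), k, div_ne_zero hb00 he0, ?_, fun a ha => ?_⟩
  · rw [div_pow, hek', mul_div_assoc, div_self (pow_ne_zero m he0), mul_one]
  · rw [map_div₀, hact a ha, S36.Base.mem_L0_iff.1 e.2 a ha, mul_div_assoc]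

/-- finite level characters of inertia of order prime to `q` are multiplied by `q` under conjugation
by a Frobenius element. -/
theorem chi_conj (hq : q.Prime) (hA : A.LiesOverPrime q) {m : ℕ} (hm : ¬ q ∣ m)
    (χ : GQ → Qbˣ)
    (hmul : ∀ a ∈ A.inertiaSubgroupIn ℚ, ∀ b ∈ A.inertiaSubgroupIn ℚ, χ (a * b) = χ a * χ b)
    (hpow : ∀ a ∈ A.inertiaSubgroupIn ℚ, χ a ^ m = 1)
    (hlev : ∃ E : IntermediateField ℚ Qb, FiniteDimensional ℚ E ∧
      ∀ a ∈ A.inertiaSubgroupIn ℚ, (∀ x ∈ E, a x = x) → χ a = 1)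
    {φ : GQ} (hφ : A.IsFrobeniusAt φ q) {s : GQ} (hs : s ∈ A.inertiaSubgroupIn ℚ) :
    χ (φ * s * φ⁻¹) = χ s ^ q := by
  obtain ⟨b, k, hb0, hbm, hact⟩ := exists_kummer_elt hq hA hm χ hmul hpow hlev
  have hs' : φ * s * φ⁻¹ ∈ A.inertiaSubgroupIn ℚ :=
    S37.conj_mem_inertiaSubgroupIn A hφ.mem_decompositionSubgroup hs
  set b' : Qb := φ⁻¹ b with hb'
  have hφb' : φ b' = b := by
    rw [hb', ← AlgEquiv.mul_apply, mul_inv_cancel, AlgEquiv.one_apply]
  have hb'm : b' ^ m = b ^ m := by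
    rw [hb', ← map_pow, hbm, map_zpow₀, map_natCast]
  set ζ : Qb := b' / b with hζ
  have hζm : ζ ^ m = 1 := by
    rw [hζ, div_pow, hb'm, div_self (pow_ne_zero m hb0)]
  have hb'ζ : b' = ζ * b := by
    rw [hζ, div_mul_cancel₀ _ hb0]
  have h1 : s b' = (χ s : Qb) * b' := by
    rw [hb'ζ, map_mul, S31.inertia_apply_root A hq hA s hs hm hζm, hact s hs]
    ring
  have hχm : ((χ s : Qbˣ) : Qb) ^ m = 1 := by
    rw [← Units.val_pow_eq_pow_val, hpow s hs, Units.val_one]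
  have h2 : (φ * s * φ⁻¹) b = ((χ s : Qbˣ) : Qb) ^ q * b := by
    rw [AlgEquiv.mul_apply, AlgEquiv.mul_apply, ← hb', h1, map_mul, hφb',
      S31.frob_apply_root A hq hA φ hφ hm hχm]
  have h3 := hact _ hs'
  rw [h2] at h3
  apply Units.ext
  rw [Units.val_pow_eq_pow_val]
  exact (mul_right_cancel₀ hb0 h3).symm

variable {M m : ℕ} [NeZero M] [NeZero q]

/-- **The tame relation** on `Kum (M q) m`: `(φ s φ⁻¹ - 1) x = q (s - 1) x`. -/
theorem galKum_conj (hq : q.Prime) (hqM : ¬ q ∣ M) (hqm : ¬ q ∣ m) (hA : A.LiesOverPrime q)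
    {φ : GQ} (hφ : A.IsFrobeniusAt φ q) {s : GQ} (hs : s ∈ A.inertiaSubgroupIn ℚ)
    (x : Kum (M * q) m) :
    galKum (M * q) m (φ * s * φ⁻¹) x - x = q • (galKum (M * q) m s x - x) := by
  classical
  have : NeZero (M * q) := ⟨Nat.mul_ne_zero (NeZero.ne M) (NeZero.ne q)⟩
  have hm0 : 0 < m := Nat.pos_of_ne_zero (by rintro rfl; exact hqm (dvd_zero q))
  have hfin : Finite (Kum (M * q) m) := Glue.finite_Kum hm0
  have hfin' : Finite (Multiplicative (Kum (M * q) m)) := hfin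
  have hc := SS.GM2.crux2 M q m hq hqM hqm
  have hne : NeZero (Monoid.exponent (Multiplicative (Kum (M * q) m))) :=
    ⟨Monoid.exponent_ne_zero_of_finite⟩
  have key : ∀ lam : Multiplicative (Kum (M * q) m) →* Qbˣ,
      lam (Multiplicative.ofAdd (galKum (M * q) m (φ * s * φ⁻¹) x - x))
        = lam (Multiplicative.ofAdd (q • (galKum (M * q) m s x - x))) := by
    intro lam
    have h := chi_conj hq hA hqm
      (fun a => lam (Multiplicative.ofAdd (galKum (M * q) m a x - x))) ?_ ?_ ?_ hφ hs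
    · rw [h, ofAdd_nsmul, map_pow]
    · intro a ha b hb
      have h1 := SS.core34 hq hqM hqm hc A hA b a hb ha x
      have h2 : galKum (M * q) m (a * b) x - x
          = (galKum (M * q) m a x - x) + (galKum (M * q) m b x - x) := by
        rw [galKum_mul]
        have h3 : galKum (M * q) m a (galKum (M * q) m b x)
            = galKum (M * q) m a (galKum (M * q) m b x - x) + galKum (M * q) m a x := by
          rw [← map_add, sub_add_cancel]
        rw [h3, h1]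
        abel
      show lam (Multiplicative.ofAdd (galKum (M * q) m (a * b) x - x)) = _
      rw [h2, ofAdd_add, map_mul]
    · intro a _
      show lam (Multiplicative.ofAdd (galKum (M * q) m a x - x)) ^ m = 1
      rw [← map_pow, ← ofAdd_nsmul, Kum.nsmul_eq_zero, ofAdd_zero, map_one]
    · obtain ⟨L, hL, hLx⟩ := galKum_smooth (M * q) m x
      refine ⟨L, hL, fun a _ ha => ?_⟩
      show lam (Multiplicative.ofAdd (galKum (M * q) m a x - x)) = 1
      rw [hLx a ha, sub_self, ofAdd_zero, map_one]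
  exact Multiplicative.ofAdd.injective
    ((CommGroup.forall_apply_eq_apply_iff (Multiplicative (Kum (M * q) m)) (M := Qb)).1 key)

/-- `φ (s - 1) = q (s - 1) φ` on `Kum (M q) m`. -/
theorem frob_mul_N (hq : q.Prime) (hqM : ¬ q ∣ M) (hqm : ¬ q ∣ m) (hA : A.LiesOverPrime q)
    {φ : GQ} (hφ : A.IsFrobeniusAt φ q) {s : GQ} (hs : s ∈ A.inertiaSubgroupIn ℚ)
    (x : Kum (M * q) m) :
    galKum (M * q) m φ (galKum (M * q) m s x - x)
      = q • (galKum (M * q) m s (galKum (M * q) m φ x) - galKum (M * q) m φ x) := by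
  have h := galKum_conj hq hqM hqm hA hφ hs (galKum (M * q) m φ x)
  rw [← h, galKum_mul, galKum_mul, ← galKum_mul φ⁻¹ φ, inv_mul_cancel, galKum_one, map_sub]

end

end Fermat.Agent.S43.Tame
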