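import Fermat.Agent.S43.Tame.Abs
import Fermat.Agent.S43.ND.Main
import Fermat.Agent.S15.W.Mod
import Fermat.Agent.SS.GM2.Main
import Fermat.Agent.SS.Formal.Core34
import Fermat.Agent.S37.Formal

/-!
# S43 / Tame / GenK : (GEN) the inertia group at `q` acts on `Kum (M q) m` (`q ∤ m`) through its tame character

`A ∣ q`, `q ∤ M`.
* `isTameMod_kum`   : `Kum (M*q) m` with `galKum` and the Weil pairing `e1N` is an `IsTameMod`;
* `galKum_eq_of_fix`: `s ∈ I_A` fixing one `m`-th root of `q` acts trivially on `Kum (M*q) m`;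
* `exists_gen`      : there is `S ∈ I_A` (any element moving a `p`-th root of `q`) such that for ALL `k`:
    every `s ∈ I_A` acts on `Kum (M*q) (p^k)` as a power of `S`,  `S x = x ⟹ s x = x` for all `s ∈ I_A`,
    and `φ S φ⁻¹ = S ^ q` on `Kum (M*q) (p^k)` for every Frobenius `φ` at `A`.
-/

set_option autoImplicit false

open AlgebraicCurve ModularCurve

namespace Fermat.Agent.S43.Tame

open Fermat.Agent.ES Fermat.Agent.SS Fermat.Agent.S15.W

noncomputable section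

variable {M q : ℕ} [NeZero M] [NeZero q] {A : ValuationSubring Qb}

theorem e1N_left_nondeg {N e : ℕ} [NeZero N] (he : e ≠ 0) (a : ES.Kum N e)
    (h : ∀ b : ES.Kum N e, e1N a b = 1) : a = 0 := by
  have halg : Algebra.IsAlgebraic ℚ (AlgebraicClosure ℚ) :=
    (inferInstance : @Algebra.IsAlgebraic ℚ (AlgebraicClosure ℚ) _ _
      (AlgebraicClosure.instAlgebra ℚ))
  have h1 : toB1 N e a = 0 := Fermat.Agent.S43.ND.eq_zero_of_e1K_left he
    ((IsAlgClosed.lift : AlgebraicClosure ℚ →ₐ[ℚ] ℂ) : AlgebraicClosure ℚ →+* ℂ)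
    (fun b => by
      have := h ((toB1 N e).symm b)
      unfold e1N at this
      rwa [AddEquiv.apply_symm_apply] at this)
  exact (toB1 N e).map_eq_zero_iff.1 h1

theorem isTameMod_kum (hq : q.Prime) (hqM : ¬ q ∣ M) (hA : A.LiesOverPrime q) {m : ℕ}
    (hm : ¬ q ∣ m) :
    IsTameMod A m (fun s => galKum (M * q) m s) (fun a b : Kum (M * q) m => e1N a b) := by
  have hm0 : m ≠ 0 := fun h0 => hm (h0 ▸ dvd_zero q)
  refine ⟨fun s t x => galKum_mul s t x, fun s hs t ht x => ?_, fun x => ?_,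
    fun a a' b => e1N_add_left hm0 a a' b, fun a b => e1N_pow hm0 a b,
    fun a h => e1N_left_nondeg hm0 a h⟩
  · exact core34 hq hqM hm (GM2.crux2 M q m hq hqM hm) A hA t s ht hs x
  · obtain ⟨f, rfl⟩ := Kum.mk_surjective x
    obtain ⟨L, hL, hLf⟩ := exists_finite_level (M * q) ((f : (FF (M * q))ˣ) : FF (M * q))
    refine ⟨L, hL, fun s hs => ?_⟩
    show galKum (M * q) m s (Kum.mk f) = Kum.mk f
    rw [galKum_mk]
    refine congrArg Kum.mk (Subtype.ext (Units.ext ?_))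
    show ((galU (M * q) s (f : (FF (M * q))ˣ) : (FF (M * q))ˣ) : FF (M * q)) = _
    rw [coe_galU]
    exact hLf s hs

/-- an element of inertia fixing one `m`-th root of `q` acts trivially on `Kum (M*q) m`. -/
theorem galKum_eq_of_fix (hq : q.Prime) (hqM : ¬ q ∣ M) (hA : A.LiesOverPrime q) {m : ℕ}
    (hm : ¬ q ∣ m) {r : Qb} (hr : r ^ m = q) {s : GQ} (hs : s ∈ A.inertiaSubgroupIn ℚ)
    (hsr : s r = r) (x : Kum (M * q) m) : galKum (M * q) m s x = x :=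
  (isTameMod_kum hq hqM hA hm).fix_of_fix hq hA hm hr hs hsr x

/-- **(GEN)**. -/
theorem gen_of_moves (hq : q.Prime) (hqM : ¬ q ∣ M) (hA : A.LiesOverPrime q) {p : ℕ}
    (hp : p.Prime) (hpq : p ≠ q) {v : Qb} (hv : v ^ p = q) {S : GQ}
    (hS : S ∈ A.inertiaSubgroupIn ℚ) (hSv : S v ≠ v) (k : ℕ) :
    (∀ s ∈ A.inertiaSubgroupIn ℚ, ∃ n : ℕ, ∀ x : Kum (M * q) (p ^ k),
      galKum (M * q) (p ^ k) s x = galKum (M * q) (p ^ k) (S ^ n) x) ∧
    (∀ x : Kum (M * q) (p ^ k), galKum (M * q) (p ^ k) S x = x →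
      ∀ s ∈ A.inertiaSubgroupIn ℚ, galKum (M * q) (p ^ k) s x = x) ∧
    (∀ φ : GQ, A.IsFrobeniusAt φ q → ∀ x : Kum (M * q) (p ^ k),
      galKum (M * q) (p ^ k) (φ * S * φ⁻¹) x = galKum (M * q) (p ^ k) (S ^ q) x) := by
  have hqm : ¬ q ∣ p ^ k := fun h =>
    hpq ((Nat.prime_dvd_prime_iff_eq hq hp).1 (hq.dvd_of_dvd_pow h)).symm
  have hT := isTameMod_kum (M := M) hq hqM hA hqm
  refine ⟨fun s hs => hT.exists_pow hq hA hp hpq hv hS hSv hs,
    fun x hx s hs => hT.fix_of_gen hq hA hp hpq hv hS hSv hx hs, fun φ hφ x => ?_⟩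
  refine hT.conj_frob hq hA hqm hS
    (Fermat.Agent.S37.conj_mem_inertiaSubgroupIn A hφ.mem_decompositionSubgroup hS)
    (fun ζ hζ => ?_) x
  have := S31.frob_pow_apply_root A hq hA φ hφ hqm hζ 1
  rwa [pow_one, pow_one] at this

/-- **(GEN)**, existence form. -/
theorem exists_gen (hq : q.Prime) (hqM : ¬ q ∣ M) (hA : A.LiesOverPrime q) {p : ℕ}
    (hp : p.Prime) (hpq : p ≠ q) :
    ∃ S ∈ A.inertiaSubgroupIn ℚ, ∀ k : ℕ,
      (∀ s ∈ A.inertiaSubgroupIn ℚ, ∃ n : ℕ, ∀ x : Kum (M * q) (p ^ k),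
        galKum (M * q) (p ^ k) s x = galKum (M * q) (p ^ k) (S ^ n) x) ∧
      (∀ x : Kum (M * q) (p ^ k), galKum (M * q) (p ^ k) S x = x →
        ∀ s ∈ A.inertiaSubgroupIn ℚ, galKum (M * q) (p ^ k) s x = x) ∧
      (∀ φ : GQ, A.IsFrobeniusAt φ q → ∀ x : Kum (M * q) (p ^ k),
        galKum (M * q) (p ^ k) (φ * S * φ⁻¹) x = galKum (M * q) (p ^ k) (S ^ q) x) := by
  obtain ⟨v, hv⟩ := IsAlgClosed.exists_pow_nat_eq (q : Qb) hp.pos
  obtain ⟨S, hS, hSv⟩ := exists_moves hq hA hp hv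
  exact ⟨S, hS, fun k => gen_of_moves hq hqM hA hp hpq hv hS hSv k⟩

end

end Fermat.Agent.S43.Tame
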