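import Fermat.Agent.S55.Arith.H90
import Fermat.Agent.S36.Base.Tame
import Fermat.Agent.S31.Cyclo

/-!
# S43 / Tame / Kummer : Kummer theory for the inertia group `I_A`, `A ∣ q`, exponent `m` prime to `q`

* `kummer_inertia` : a multiplicative map `χ : I_A → μ_m` of finite level is a power of the tame character
  `s ↦ s r / r`, `r ^ m = q`   (Hilbert 90 for `I_A` + `L0ˣ = q^ℤ × (units)`, units are `m`-th powers).
* `exists_moves` : some `Σ ∈ I_A` moves a given `p`-th root of `q` (`p ≠ q` prime).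
* `isPrimitiveRoot_tame` : for such `Σ` and `r ^ (p ^ k) = q`, `Σ r / r` is a primitive `p ^ k`-th root of unity.
* `exists_pow_fix` : for every `s ∈ I_A` there is `n` with `((Σ ^ n)⁻¹ * s) r = r`.
-/

set_option autoImplicit false

namespace Fermat.Agent.S43.Tame

open Fermat.Agent.S55 Fermat.Agent.S55.Places Fermat.Agent.S36.Base

noncomputable section

attribute [local instance] isAlgClosureQbar

variable {q : ℕ} {A : ValuationSubring Qbar}

/-- **Kummer theory for the inertia group.** -/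
theorem kummer_inertia (hq : q.Prime) (hA : A.LiesOverPrime q) {m : ℕ} (hm : ¬ q ∣ m)
    (χ : GQ → Qbar)
    (hmul : ∀ s ∈ A.inertiaSubgroupIn ℚ, ∀ t ∈ A.inertiaSubgroupIn ℚ, χ (s * t) = χ s * χ t)
    (hpow : ∀ s ∈ A.inertiaSubgroupIn ℚ, χ s ^ m = 1)
    (hlev : ∃ E : NF, FiniteDimensional ℚ E ∧
      ∀ s ∈ A.inertiaSubgroupIn ℚ, (∀ y ∈ E, s y = y) → χ s = 1) :
    ∃ j : ℤ, ∀ s ∈ A.inertiaSubgroupIn ℚ, ∀ r : Qbar, r ^ m = q → χ s = (s r / r) ^ j := by
  classical
  have hm0 : m ≠ 0 := fun h0 => hm (h0 ▸ dvd_zero q)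
  set I : Subgroup GQ := A.inertiaSubgroupIn ℚ with hI
  have hχ0 : ∀ s ∈ I, χ s ≠ 0 := by
    intro s hs h0
    have := hpow s hs
    rw [h0, zero_pow hm0] at this
    exact zero_ne_one this
  obtain ⟨E, hE, hEχ⟩ := hlev
  -- the cocycle
  let c : I → Additive Qbarˣ := fun s => Additive.ofMul (Units.mk0 (χ s) (hχ0 s s.2))
  have hc : c ∈ Z1 (Lall.sub I) (rsub Gm I) := by
    rw [mem_Z1]
    refine ⟨fun g h => ?_, E.fixingSubgroup.subgroupOf I,
      ⟨E.fixingSubgroup, Lall_isOpen_iff.2 ⟨E, hE, le_rfl⟩, le_rfl⟩, fun g s hs => ?_⟩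
    · apply Additive.toMul.injective
      apply Units.ext
      show χ ((g : GQ) * (h : GQ)) = (g : GQ) (χ h) * χ g
      rw [hmul g g.2 h h.2, Fermat.Agent.S31.inertia_apply_root A hq hA g g.2 hm (hpow h h.2),
        mul_comm]
    · apply Additive.toMul.injective
      apply Units.ext
      show χ ((g : GQ) * (s : GQ)) = χ g
      have hs' : ((s : I) : GQ) ∈ E.fixingSubgroup := hs
      rw [hmul g g.2 s s.2, hEχ s s.2 (fun y hy =>
        (IntermediateField.mem_fixingSubgroup_iff E _).1 hs' y hy), mul_one]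
  obtain ⟨β, hβ⟩ := h90_Gm I hc
  set b : Qbar := ((β.toMul : Qbarˣ) : Qbar) with hb
  have hb0 : b ≠ 0 := Units.ne_zero _
  have hχb : ∀ s (hs : s ∈ I), χ s = s b / b := by
    intro s hs
    have h1 := congrFun hβ ⟨s, hs⟩
    have h2 : (((d0 (rsub Gm I) β ⟨s, hs⟩).toMul : Qbarˣ) : Qbar) = s b / b := by
      show (((Gm s β - β).toMul : Qbarˣ) : Qbar) = s b / b
      rw [toMul_sub, Units.val_div_eq_div_val, Gm_apply]
    rw [← h2, h1]
    rfl
  -- `b ^ m ∈ L0`
  have hbm : b ^ m ∈ L0 A := by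
    rw [mem_L0_iff]
    intro s hs
    have h1 := hχb s hs
    have h2 := hpow s hs
    rw [h1, div_pow, div_eq_one_iff_eq (pow_ne_zero m hb0)] at h2
    rw [map_pow, h2]
  obtain ⟨k, e, -, -, hke⟩ := exists_zpow_mul_pow hq hA hm (⟨b ^ m, hbm⟩ : L0 A)
    (fun h => pow_ne_zero m hb0 (congrArg Subtype.val h))
  have hke' : b ^ m = (q : Qbar) ^ k * (e : Qbar) ^ m := by
    have h := congrArg (algebraMap (L0 A) Qbar) hke
    rw [map_mul, map_zpow₀, map_pow, map_natCast] at h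
    exact h
  have he0 : (e : Qbar) ≠ 0 := by
    intro h0
    rw [h0, zero_pow hm0, mul_zero] at hke'
    exact pow_ne_zero m hb0 hke'
  refine ⟨k, fun s hs r hr => ?_⟩
  have hq0 : (q : Qbar) ≠ 0 := by exact_mod_cast hq.ne_zero
  have hr0 : r ≠ 0 := by
    intro h0
    rw [h0, zero_pow hm0] at hr
    exact hq0 hr.symm
  set z : Qbar := b / (r ^ k * e) with hz
  have hzm : z ^ m = 1 := by
    rw [hz, div_pow, mul_pow, hke', ← zpow_natCast (r ^ k) m, ← zpow_mul, mul_comm k, zpow_mul,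
      zpow_natCast, hr]
    exact div_self (mul_ne_zero (zpow_ne_zero _ hq0) (pow_ne_zero _ he0))
  have hbz : b = z * (r ^ k * e) := by
    rw [hz, div_mul_cancel₀]
    exact mul_ne_zero (zpow_ne_zero _ hr0) he0
  have hse : s (e : Qbar) = e := mem_L0_iff.1 e.2 s hs
  have hsz : s z = z := Fermat.Agent.S31.inertia_apply_root A hq hA s hs hm hzm
  have hz0 : z ≠ 0 := by
    intro h0
    rw [h0, zero_pow hm0] at hzm
    exact zero_ne_one hzm
  rw [hχb s hs]
  conv_lhs => rw [hbz]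
  rw [map_mul, map_mul, map_zpow₀, hse, hsz, div_zpow]
  field_simp

/-- some element of the inertia group moves a given `p`-th root of `q`. -/
theorem exists_moves (hq : q.Prime) (hA : A.LiesOverPrime q) {p : ℕ} (hp : p.Prime) {v : Qbar}
    (hv : v ^ p = q) : ∃ S ∈ A.inertiaSubgroupIn ℚ, S v ≠ v := by
  by_contra hcon
  push Not at hcon
  have hq0 : (q : Qbar) ≠ 0 := by exact_mod_cast hq.ne_zero
  have hv0 : v ≠ 0 := by
    intro h0
    rw [h0, zero_pow hp.ne_zero] at hv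
    exact hq0 hv.symm
  obtain ⟨k, h1, h2⟩ := exists_zpow_mul_mem hq hA (mem_L0_iff.2 hcon) hv0
  have hu : A.valuation (v * (q : Qbar) ^ k) = 1 := by
    refine le_antisymm ((A.valuation_le_one_iff _).2 h1) ?_
    have h3 := (A.valuation_le_one_iff _).2 h2
    rw [map_inv₀] at h3
    by_contra h4
    push Not at h4
    have h5 : A.valuation (v * (q : Qbar) ^ k) ≠ 0 := by
      rw [Ne, map_eq_zero]
      exact mul_ne_zero hv0 (zpow_ne_zero _ hq0)
    have h6 := (one_lt_inv₀ (zero_lt_iff.2 h5)).2 h4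
    exact absurd h3 (not_le.2 h6)
  set a := A.valuation (q : Qbar) with ha
  have ha1 : a < 1 := (A.mem_nonunits_iff).1 hA
  have ha0 : a ≠ 0 := by
    rw [ha, Ne, map_eq_zero]
    exact hq0
  have hn : a ^ (1 + k * (p : ℤ)) = 1 := by
    have h3 : A.valuation (v * (q : Qbar) ^ k) ^ p = 1 := by rw [hu, one_pow]
    rw [← map_pow, mul_pow, hv, map_mul, map_pow, map_zpow₀, ← ha, ← zpow_natCast (a ^ k) p,
      ← zpow_mul] at h3
    rw [zpow_add₀ ha0, zpow_one]
    exact h3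
  have hn0 : (1 + k * (p : ℤ)) ≠ 0 := by
    intro h0
    have h3 : (p : ℤ) ∣ 1 := ⟨-k, by linarith⟩
    have h4 : p ∣ 1 := by exact_mod_cast h3
    exact hp.one_lt.ne' (Nat.dvd_one.1 h4)
  have hN : a ^ (1 + k * (p : ℤ)).natAbs = 1 := by
    rcases Int.natAbs_eq (1 + k * (p : ℤ)) with h | h
    · rw [h, zpow_natCast] at hn
      simpa using hn
    · rw [h, zpow_neg, zpow_natCast, inv_eq_one] at hn
      simpa using hn
  have hlt : a ^ (1 + k * (p : ℤ)).natAbs < 1 :=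
    (pow_lt_one_iff (Int.natAbs_ne_zero.2 hn0)).2 ha1
  exact absurd hN hlt.ne

variable {p : ℕ}

/-- the tame character of `S` is of exact order `p ^ k`. -/
theorem isPrimitiveRoot_tame (hq : q.Prime) (hA : A.LiesOverPrime q) (hp : p.Prime) (hpq : p ≠ q)
    {v : Qbar} (hv : v ^ p = q) {S : GQ} (hS : S ∈ A.inertiaSubgroupIn ℚ) (hSv : S v ≠ v)
    (k : ℕ) {r : Qbar} (hr : r ^ (p ^ k) = q) : IsPrimitiveRoot (S r / r) (p ^ k) := by
  have : Fact p.Prime := ⟨hp⟩
  have hq0 : (q : Qbar) ≠ 0 := by exact_mod_cast hq.ne_zero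
  have hqp : ¬ q ∣ p := fun h => hpq ((Nat.prime_dvd_prime_iff_eq hq hp).1 h).symm
  have hr0 : r ≠ 0 := by
    intro h0
    rw [h0, zero_pow (pow_ne_zero _ hp.ne_zero)] at hr
    exact hq0 hr.symm
  have hv0 : v ≠ 0 := by
    intro h0
    rw [h0, zero_pow hp.ne_zero] at hv
    exact hq0 hv.symm
  have htop : (S r / r) ^ (p ^ k) = 1 := by
    rw [div_pow, ← map_pow, hr, map_natCast, div_self hq0]
  cases k with
  | zero =>
    rw [pow_zero, pow_one] at htop
    rw [htop, pow_zero]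
    exact IsPrimitiveRoot.one
  | succ k =>
    have hnot : ¬ (S r / r) ^ (p ^ k) = 1 := by
      intro h1
      set r' : Qbar := r ^ (p ^ k) with hr'
      have hr'0 : r' ≠ 0 := pow_ne_zero _ hr0
      have hr'p : r' ^ p = q := by rw [hr', ← pow_mul, ← pow_succ, hr]
      have h2 : S r' = r' := by
        rw [div_pow, ← map_pow, div_eq_one_iff_eq hr'0] at h1
        exact h1
      have h3 : (r' / v) ^ p = 1 := by rw [div_pow, hr'p, hv, div_self hq0]
      have h4 := Fermat.Agent.S31.inertia_apply_root A hq hA S hS hqp h3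
      rw [map_div₀, h2] at h4
      have hSv0 : S v ≠ 0 := by
        rw [Ne, map_eq_zero]
        exact hv0
      have h5 := (div_eq_div_iff hSv0 hv0).1 h4
      exact hSv (mul_left_cancel₀ hr'0 h5).symm
    have ho := orderOf_eq_prime_pow hnot htop
    rw [← ho]
    exact IsPrimitiveRoot.orderOf _

theorem pow_apply_tame (hq : q.Prime) (hA : A.LiesOverPrime q) {m : ℕ} (hm : ¬ q ∣ m)
    {S : GQ} (hS : S ∈ A.inertiaSubgroupIn ℚ) {r : Qbar} (hr0 : r ≠ 0) (hz : (S r / r) ^ m = 1)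
    (n : ℕ) : (S ^ n) r = (S r / r) ^ n * r := by
  induction n with
  | zero => simp
  | succ n ih =>
    have h1 : S r = (S r / r) * r := by rw [div_mul_cancel₀ _ hr0]
    rw [pow_succ, AlgEquiv.mul_apply]
    conv_lhs => rw [h1]
    rw [map_mul, ih, Fermat.Agent.S31.inertia_apply_root A hq hA (S ^ n) (pow_mem hS n) hm hz]
    ring

/-- every `s ∈ I_A` agrees with a power of `S` on `r`. -/
theorem exists_pow_fix (hq : q.Prime) (hA : A.LiesOverPrime q) (hp : p.Prime) (hpq : p ≠ q)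
    {v : Qbar} (hv : v ^ p = q) {S : GQ} (hS : S ∈ A.inertiaSubgroupIn ℚ) (hSv : S v ≠ v)
    (k : ℕ) {r : Qbar} (hr : r ^ (p ^ k) = q) {s : GQ} (_hs : s ∈ A.inertiaSubgroupIn ℚ) :
    ∃ n : ℕ, ((S ^ n)⁻¹ * s) r = r := by
  have hq0 : (q : Qbar) ≠ 0 := by exact_mod_cast hq.ne_zero
  have hr0 : r ≠ 0 := by
    intro h0
    rw [h0, zero_pow (pow_ne_zero _ hp.ne_zero)] at hr
    exact hq0 hr.symm
  have hqm : ¬ q ∣ p ^ k := fun h =>
    hpq ((Nat.prime_dvd_prime_iff_eq hq hp).1 (hq.dvd_of_dvd_pow h)).symm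
  have hprim := isPrimitiveRoot_tame hq hA hp hpq hv hS hSv k hr
  have : NeZero (p ^ k) := ⟨pow_ne_zero _ hp.ne_zero⟩
  have hη : (s r / r) ^ (p ^ k) = 1 := by
    rw [div_pow, ← map_pow, hr, map_natCast, div_self hq0]
  obtain ⟨n, -, hn⟩ := hprim.eq_pow_of_pow_eq_one hη
  refine ⟨n, ?_⟩
  have h1 : s r = (S ^ n) r := by
    rw [pow_apply_tame hq hA hqm hS hr0 hprim.pow_eq_one n, hn, div_mul_cancel₀ _ hr0]
  rw [AlgEquiv.mul_apply, h1, ← AlgEquiv.mul_apply, inv_mul_cancel, AlgEquiv.one_apply]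

end

end Fermat.Agent.S43.Tame
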